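import Mathlib

/-!
# Row LT, tower T6 (LOCAL COMPARISON) -- Spec (architect helper22), OFF-MAIN

Definitions only + frozen Props + proved `top`.  No hole, no opaque constant, nothing assumed.
Interface memo: `coord/LT-T6-interface.md` (origin/helper22).

T6 is LOCAL and ALGEBRAIC: no adeles, no Haar measure, no `L²`.

* Part A (any field): the NORM MAP `N δ = δ · σ δ ⋯ σ^{l-1} δ` on `GL₂`, `σ`-conjugacy, regular
  elements.  Props `NormClassC` ([L] Lemma 4.1), `NormInjC`, `TwCentC` ([L] Lemma 4.2),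
  `NormImageTCC`, `NormImageQC` (local-global principle for norms in the two cases of the wall;
  hypothesis-parametrised on the Hasse norm theorem `HasseNormTCC`, `HasseNormQC`, inputs from
  tower CFT; the general statements `HasseNormC`, `NormImageC` are kept as definitions).
* Part B (abstract nonarchimedean local field `k` = a field with `Valued k ℤᵐ⁰`): congruence
  subgroups `U(n)`, the Cartan invariant, ORBITAL INTEGRALS AS FINITE WEIGHTED ORBIT SUMS
  (relation `IsOrbSumGen`), the Satake polynomials and the base-change relation `IsBC`.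
* Part C: the FUNDAMENTAL LEMMA for the whole spherical Hecke algebra at an inert unramified
  place (`FundLemmaC`, [L] §5), matching at split places (`SplitMatchC`, [L] §8), matching at
  the remaining finite places on the regular set (`BadMatchC`, [L] §6).

References: [L] = Langlands, *Base change for GL(2)*, Ann. of Math. Studies 96 (by section).

NORMALISATION OF ORBITAL INTEGRALS.  `G` a group with an automorphism `s`, `U` an open compact
subgroup with `s U = U`, `φ` bi-`U`-invariant, `δ ∈ G`.  With `vol U = 1` and `vol T^c = 1`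
(`T^c` the maximal compact subgroup of the twisted centraliser), the twisted orbital integral is
`∫_{T_δ \ G} φ(x⁻¹ δ s(x)) dx = ∑_{[y]} φ(y) · [T_y^c : T_y ∩ U]`, the sum over the classes `[y]`
of the `s`-conjugacy class of `δ` modulo `s`-conjugation by `U` (`y ∼ u⁻¹ y s(u)`).  For `s = 1`
this is the ordinary orbital integral.  For `N δ = γ ∈ GL₂(k)` regular the twisted centraliser of
`δ` IS the centraliser of `γ` in `GL₂(k)` (`TwCentC`), so the same torus, with the same measure,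
occurs on both sides of every comparison below.
-/

set_option autoImplicit false

open scoped Matrix

noncomputable section

namespace Fermat.Agent.LT.T6

/-! ## Part A.  Norm map and `σ`-conjugacy -/

/-- The twisted norm in a group `Γ` with an endomorphism `s`:
`N_n δ = δ · s(δ) ⋯ s^{n-1}(δ)` (`N_0 δ = 1`). -/
def twN {Γ : Type} [Group Γ] (s : Γ →* Γ) : ℕ → Γ → Γ
  | 0, _ => 1
  | (n + 1), δ => δ * s (twN s n δ)

section NormMap

variable {R : Type} [CommRing R]

/-- The action of a ring automorphism on `GL₂`. -/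
def glAut (s : R ≃+* R) : GL (Fin 2) R →* GL (Fin 2) R :=
  Matrix.GeneralLinearGroup.map (s : R →+* R)

/-- The twisted norm `N_n δ = δ · s(δ) ⋯ s^{n-1}(δ)` (`N_0 δ = 1`). -/
def twNorm (s : R ≃+* R) (n : ℕ) (δ : GL (Fin 2) R) : GL (Fin 2) R :=
  twN (glAut s) n δ

/-- `δ'` is `s`-conjugate to `δ`: `δ' = x⁻¹ δ s(x)`. -/
def IsTwConj (s : R ≃+* R) (δ δ' : GL (Fin 2) R) : Prop :=
  ∃ x : GL (Fin 2) R, δ' = x⁻¹ * δ * glAut s x

/-- `x` lies in the twisted centraliser of `δ`. -/
def InTwCent (s : R ≃+* R) (δ x : GL (Fin 2) R) : Prop :=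
  x⁻¹ * δ * glAut s x = δ

/-- The discriminant `tr² - 4 det` of the characteristic polynomial. -/
def disc (γ : GL (Fin 2) R) : R :=
  (γ : Matrix (Fin 2) (Fin 2) R).trace ^ 2 - 4 * (γ : Matrix (Fin 2) (Fin 2) R).det

/-- `γ` is REGULAR (semisimple): the discriminant of its characteristic polynomial is a unit
(over a field: is not zero, i.e. two distinct eigenvalues in an algebraic closure). -/
def IsReg (γ : GL (Fin 2) R) : Prop := IsUnit (disc γ)

/-- `γ` is ELLIPTIC over the field `R`: regular, no eigenvalue in `R`. -/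
def IsEll (γ : GL (Fin 2) R) : Prop :=
  IsReg γ ∧ ∀ x : R, x ^ 2 - (γ : Matrix (Fin 2) (Fin 2) R).trace * x
    + (γ : Matrix (Fin 2) (Fin 2) R).det ≠ 0

end NormMap

/-- The data of a cyclic extension `K'/K` of fields of degree `l` with generator `s`:
`s` has order exactly `l` and `K` (its image) is the fixed field. -/
structure IsCyclicData (K K' : Type) [Field K] [Field K'] (l : ℕ) (i : K →+* K')
    (s : K' ≃+* K') : Prop where
  pos : 0 < l
  fix_i : ∀ x : K, s (i x) = i x
  fixed : ∀ y : K', s y = y → ∃ x : K, i x = y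
  order : ∀ y : K', (s ^ l) y = y
  faithful : ∀ m : ℕ, 0 < m → m < l → ∃ y : K', (s ^ m) y ≠ y

/-- `γ ∈ GL₂(K)` is (conjugate to) a NORM from `GL₂(K')`. -/
def IsNormFrom {K K' : Type} [Field K] [CommRing K'] (l : ℕ) (i : K →+* K') (s : K' ≃+* K')
    (γ : GL (Fin 2) K) : Prop :=
  ∃ δ : GL (Fin 2) K', IsConj (twNorm s l δ) (Matrix.GeneralLinearGroup.map i γ)

/-- **P1 (NormClass), [L] Lemma 4.1.**  The norm of every `δ ∈ GL₂(K')` is conjugate in
`GL₂(K')` to an element of `GL₂(K)`. -/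
def NormClassC : Prop :=
  ∀ (K K' : Type) [Field K] [Field K'] (l : ℕ) (i : K →+* K') (s : K' ≃+* K'),
    IsCyclicData K K' l i s →
    ∀ δ : GL (Fin 2) K', ∃ γ : GL (Fin 2) K,
      IsConj (twNorm s l δ) (Matrix.GeneralLinearGroup.map i γ)

/-- **P2a (NormInj), [L] Lemma 4.2.**  If `N δ` is regular and `N δ`, `N δ'` are conjugate then
`δ` and `δ'` are `s`-conjugate (Hilbert 90 in `K'[γ] / K[γ]`). -/
def NormInjC : Prop :=
  ∀ (K K' : Type) [Field K] [Field K'] (l : ℕ) (i : K →+* K') (s : K' ≃+* K'),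
    IsCyclicData K K' l i s →
    ∀ δ δ' : GL (Fin 2) K', IsReg (twNorm s l δ) → IsConj (twNorm s l δ) (twNorm s l δ') →
      IsTwConj s δ δ'

/-- **P2b (TwCent), [L] §4.**  If `N δ = γ ∈ GL₂(K)` is regular, the twisted centraliser of `δ`
is the image of the centraliser of `γ` in `GL₂(K)`. -/
def TwCentC : Prop :=
  ∀ (K K' : Type) [Field K] [Field K'] (l : ℕ) (i : K →+* K') (s : K' ≃+* K'),
    IsCyclicData K K' l i s →
    ∀ (δ : GL (Fin 2) K') (γ : GL (Fin 2) K), IsReg γ →
      twNorm s l δ = Matrix.GeneralLinearGroup.map i γ →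
      ∀ x : GL (Fin 2) K', InTwCent s δ x ↔
        ∃ t : GL (Fin 2) K, t * γ = γ * t ∧ x = Matrix.GeneralLinearGroup.map i t

/-! ### Local-global principle for norms (number fields) -/

section LocalGlobal

open IsDedekindDomain NumberField

variable (K K' : Type) [Field K] [NumberField K] [Field K'] [NumberField K'] [Algebra K K']

/-- The local algebra `K' ⊗_K K_v` at a finite place `v` of `K`. -/
abbrev locAlgFin (v : HeightOneSpectrum (𝓞 K)) : Type :=
  TensorProduct K K' (v.adicCompletion K)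

/-- The local algebra `K' ⊗_K K_w` at an infinite place `w` of `K`. -/
abbrev locAlgInf (w : InfinitePlace K) : Type :=
  TensorProduct K K' w.Completion

variable {K K'}

/-- The automorphism `s ⊗ 1` of `K' ⊗_K K_v`. -/
def locAutFin (s : K' ≃ₐ[K] K') (v : HeightOneSpectrum (𝓞 K)) :
    locAlgFin K K' v ≃+* locAlgFin K K' v :=
  (Algebra.TensorProduct.congr s (AlgEquiv.refl : v.adicCompletion K ≃ₐ[K] v.adicCompletion K)
    : locAlgFin K K' v ≃ₐ[K] locAlgFin K K' v).toRingEquiv

/-- The automorphism `s ⊗ 1` of `K' ⊗_K K_w`. -/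
def locAutInf (s : K' ≃ₐ[K] K') (w : InfinitePlace K) :
    locAlgInf K K' w ≃+* locAlgInf K K' w :=
  (Algebra.TensorProduct.congr s (AlgEquiv.refl : w.Completion ≃ₐ[K] w.Completion)
    : locAlgInf K K' w ≃ₐ[K] locAlgInf K K' w).toRingEquiv

/-- `γ ∈ GL₂(K)` is a norm at the finite place `v`: conjugate in `GL₂(K' ⊗ K_v)` to the norm of
an element of `GL₂(K' ⊗ K_v)`. -/
def IsLocNormFin (s : K' ≃ₐ[K] K') (l : ℕ) (v : HeightOneSpectrum (𝓞 K)) (γ : GL (Fin 2) K) :
    Prop :=
  ∃ δ : GL (Fin 2) (locAlgFin K K' v),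
    IsConj (twNorm (locAutFin s v) l δ)
      (Matrix.GeneralLinearGroup.map
        ((Algebra.TensorProduct.includeRight : v.adicCompletion K →ₐ[K] locAlgFin K K' v)
            : v.adicCompletion K →+* locAlgFin K K' v)
        (Matrix.GeneralLinearGroup.map (algebraMap K (v.adicCompletion K)) γ))

/-- `γ ∈ GL₂(K)` is a norm at the infinite place `w`. -/
def IsLocNormInf (s : K' ≃ₐ[K] K') (l : ℕ) (w : InfinitePlace K) (γ : GL (Fin 2) K) : Prop :=
  ∃ δ : GL (Fin 2) (locAlgInf K K' w),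
    IsConj (twNorm (locAutInf s w) l δ)
      (Matrix.GeneralLinearGroup.map
        ((Algebra.TensorProduct.includeRight : w.Completion →ₐ[K] locAlgInf K K' w)
            : w.Completion →+* locAlgInf K K' w)
        (Matrix.GeneralLinearGroup.map (algebraMap K w.Completion) γ))

end LocalGlobal

/-- **INPUT from tower CFT: the Hasse norm theorem** for a cyclic extension `M/L` of number
fields of prime degree: an element of `L` which is a norm from `L_u ⊗_L M` for every finite and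
every infinite place `u` of `L` is a norm from `M`. -/
def HasseNormC : Prop :=
  ∀ (L M : Type) [Field L] [NumberField L] [Field M] [NumberField M] [Algebra L M]
    [IsGalois L M], IsCyclic (M ≃ₐ[L] M) → (Module.finrank L M).Prime →
    ∀ x : L, x ≠ 0 →
      (∀ u : IsDedekindDomain.HeightOneSpectrum (NumberField.RingOfIntegers L),
        ∃ y : TensorProduct L (u.adicCompletion L) M,
          Algebra.norm (u.adicCompletion L)
            (S := TensorProduct L (u.adicCompletion L) M) y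
            = algebraMap L (u.adicCompletion L) x) →
      (∀ u : NumberField.InfinitePlace L,
        ∃ y : TensorProduct L u.Completion M,
          Algebra.norm u.Completion (S := TensorProduct L u.Completion M) y
            = algebraMap L u.Completion x) →
      ∃ y : M, Algebra.norm L y = x

/-- **P3 (NormImage), [L] §4.**  For `K'/K` cyclic of prime degree `l` (number fields), an
elliptic regular `γ ∈ GL₂(K)` which is a norm at every place is a norm. -/
def NormImageC : Prop :=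
  ∀ (K K' : Type) [Field K] [NumberField K] [Field K'] [NumberField K'] [Algebra K K']
    [IsGalois K K'] (s : K' ≃ₐ[K] K'),
    (∀ t : K' ≃ₐ[K] K', t ∈ Subgroup.zpowers s) → (Module.finrank K K').Prime →
    ∀ γ : GL (Fin 2) K, IsEll γ →
      (∀ v, IsLocNormFin s (Module.finrank K K') v γ) →
      (∀ w, IsLocNormInf s (Module.finrank K K') w γ) →
      IsNormFrom (Module.finrank K K') (algebraMap K K') (s : K' ≃+* K') γ

/-! ### The two cases which the wall uses

The cubic step `E/F` has a TOTALLY COMPLEX base field `F = ℚ(√-3)` (then `L = F[γ]` is totally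
complex as well); the quadratic step has base field `ℚ` and `K' = F = ℚ(√-3)`
(then `L = ℚ[γ]` is a quadratic field, REAL or imaginary, and `M = L(√-3)`).  Tower CFT delivers
the Hasse norm theorem in these two cases only; `T6Out` contains exactly these two cases. -/

/-- **INPUT from tower CFT, totally complex case**: `HasseNormC` for `L` totally complex. -/
def HasseNormTCC : Prop :=
  ∀ (L M : Type) [Field L] [NumberField L] [Field M] [NumberField M] [Algebra L M]
    [IsGalois L M], IsCyclic (M ≃ₐ[L] M) → (Module.finrank L M).Prime →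
    (∀ u : NumberField.InfinitePlace L, u.IsComplex) →
    ∀ x : L, x ≠ 0 →
      (∀ u : IsDedekindDomain.HeightOneSpectrum (NumberField.RingOfIntegers L),
        ∃ y : TensorProduct L (u.adicCompletion L) M,
          Algebra.norm (u.adicCompletion L)
            (S := TensorProduct L (u.adicCompletion L) M) y
            = algebraMap L (u.adicCompletion L) x) →
      ∃ y : M, Algebra.norm L y = x

/-- **INPUT from tower CFT, quadratic case over `ℚ`**: `HasseNormC` for `L/ℚ` quadratic (real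
or imaginary) and `M = L(√-3)` quadratic over `L`.  (Elementary route of helper438: reduction to
the Hasse--Minkowski theorem over `ℚ` for a quaternary form.) -/
def HasseNormQC : Prop :=
  ∀ (L M : Type) [Field L] [NumberField L] [Field M] [NumberField M] [Algebra L M]
    [IsGalois L M], Module.finrank ℚ L = 2 → Module.finrank L M = 2 →
    (∃ z : M, z ^ 2 = -3 ∧ ∀ x : L, algebraMap L M x ≠ z) →
    ∀ x : L, x ≠ 0 →
      (∀ u : IsDedekindDomain.HeightOneSpectrum (NumberField.RingOfIntegers L),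
        ∃ y : TensorProduct L (u.adicCompletion L) M,
          Algebra.norm (u.adicCompletion L)
            (S := TensorProduct L (u.adicCompletion L) M) y
            = algebraMap L (u.adicCompletion L) x) →
      (∀ u : NumberField.InfinitePlace L,
        ∃ y : TensorProduct L u.Completion M,
          Algebra.norm u.Completion (S := TensorProduct L u.Completion M) y
            = algebraMap L u.Completion x) →
      ∃ y : M, Algebra.norm L y = x

/-- **P3a (NormImage, totally complex base), [L] §4.**  `NormImageC` for `K` totally complex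
(no condition at the infinite places: they split). -/
def NormImageTCC : Prop :=
  ∀ (K K' : Type) [Field K] [NumberField K] [Field K'] [NumberField K'] [Algebra K K']
    [IsGalois K K'] (s : K' ≃ₐ[K] K'),
    (∀ t : K' ≃ₐ[K] K', t ∈ Subgroup.zpowers s) → (Module.finrank K K').Prime →
    (∀ w : NumberField.InfinitePlace K, w.IsComplex) →
    ∀ γ : GL (Fin 2) K, IsEll γ →
      (∀ v, IsLocNormFin s (Module.finrank K K') v γ) →
      IsNormFrom (Module.finrank K K') (algebraMap K K') (s : K' ≃+* K') γ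

/-- **P3b (NormImage, quadratic step over `ℚ`), [L] §4.**  `NormImageC` for `K = ℚ` and
`K' = ℚ(√-3)`.  (If `ℚ[γ] ≅ K'` every element is a norm; otherwise `M = ℚ[γ] ⊗ K'` is the field
`ℚ[γ](√-3)` and `HasseNormQC` applies.) -/
def NormImageQC : Prop :=
  ∀ (K' : Type) [Field K'] [NumberField K'] [IsGalois ℚ K'] (s : K' ≃ₐ[ℚ] K'),
    (∀ t : K' ≃ₐ[ℚ] K', t ∈ Subgroup.zpowers s) → Module.finrank ℚ K' = 2 →
    (∃ z : K', z ^ 2 = -3) →
    ∀ γ : GL (Fin 2) ℚ, IsEll γ →
      (∀ v, IsLocNormFin s 2 v γ) →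
      (∀ w, IsLocNormInf s 2 w γ) →
      IsNormFrom 2 (algebraMap ℚ K') (s : K' ≃+* K') γ

/-! ## Part B.  Abstract nonarchimedean local fields, orbit sums, Satake polynomials -/

/-- The value group `ℤᵐ⁰` (written out). -/
abbrev Γ₀ : Type := WithZero (Multiplicative ℤ)

/-- `k` (a field with a valuation in `ℤᵐ⁰`) is a NONARCHIMEDEAN LOCAL FIELD of characteristic
zero with residue field of `q` elements: complete, the valuation takes the value `exp (-1)`
(normalised), and a full system of representatives of the residue field has `q` elements. -/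
structure IsLocalField (k : Type) [Field k] [Valued k Γ₀] (q : ℕ) : Prop where
  char0 : CharZero k
  complete : CompleteSpace k
  unif : ∃ ϖ : k, Valued.v ϖ = WithZero.exp (-1 : ℤ)
  residue : ∃ T : Finset k, T.card = q ∧ (∀ x ∈ T, Valued.v x ≤ 1) ∧
    (∀ x ∈ T, ∀ y ∈ T, x ≠ y → Valued.v (x - y) = 1) ∧
    ∀ z : k, Valued.v z ≤ 1 → ∃ x ∈ T, Valued.v (z - x) < 1

/-- `k'/k` is a cyclic extension of local fields of degree `l` with generator `s`, ramification
index `e` (`e = 1`: unramified; `e = l`: totally ramified). -/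
structure IsLocalExt (k k' : Type) [Field k] [Field k'] [Valued k Γ₀] [Valued k' Γ₀]
    (l e : ℕ) (i : k →+* k') (s : k' ≃+* k') : Prop where
  cyc : IsCyclicData k k' l i s
  e_pos : 0 < e
  val_i : ∀ x : k, Valued.v (i x) = Valued.v x ^ e
  val_s : ∀ y : k', Valued.v (s y) = Valued.v y

section LocalGroup

variable {k : Type} [Field k] [Valued k Γ₀]

/-- The principal congruence subgroup `U(n) = {g ∈ GL₂(𝒪) : g ≡ 1 mod ϖⁿ}` of `GL₂(k)`
(`U(0) = GL₂(𝒪)`), as a predicate. -/
def InU (n : ℕ) (g : GL (Fin 2) k) : Prop :=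
  ∀ i j : Fin 2,
    Valued.v ((g : Matrix (Fin 2) (Fin 2) k) i j - (1 : Matrix (Fin 2) (Fin 2) k) i j)
        ≤ WithZero.exp (-(n : ℤ)) ∧
      Valued.v (((g⁻¹ : GL (Fin 2) k) : Matrix (Fin 2) (Fin 2) k) i j
          - (1 : Matrix (Fin 2) (Fin 2) k) i j) ≤ WithZero.exp (-(n : ℤ))

/-- The largest valuation of an entry of `g`. -/
def entryMax (g : GL (Fin 2) k) : Γ₀ :=
  Finset.univ.sup' Finset.univ_nonempty
    (fun p : Fin 2 × Fin 2 => Valued.v ((g : Matrix (Fin 2) (Fin 2) k) p.1 p.2))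

/-- The CARTAN INVARIANT `(a, b)`, `a ≥ b`, of `g ∈ GL₂(𝒪) diag(ϖ^a, ϖ^b) GL₂(𝒪)`:
`b` = the least (additive) valuation of an entry, `a + b` = the valuation of `det g`. -/
def cartan (g : GL (Fin 2) k) : ℤ × ℤ :=
  (WithZero.log (entryMax g) - WithZero.log (Valued.v (g : Matrix (Fin 2) (Fin 2) k).det),
    - WithZero.log (entryMax g))

/-- `t` lies in the MAXIMAL COMPACT SUBGROUP of the `s`-twisted centraliser of `y`
(integral characteristic polynomial, unit determinant). -/
def InTwCentC (s : k ≃+* k) (y t : GL (Fin 2) k) : Prop :=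
  InTwCent s y t ∧ Valued.v (t : Matrix (Fin 2) (Fin 2) k).trace ≤ 1 ∧
    Valued.v (t : Matrix (Fin 2) (Fin 2) k).det = 1

end LocalGroup

/-! ### Orbital integrals as finite weighted orbit sums -/

section OrbitSums

variable {Γ : Type} [Group Γ]

/-- `φ` is bi-invariant under the subgroup described by the predicate `U`. -/
def IsBiInv (U : Γ → Prop) (φ : Γ → ℂ) : Prop :=
  ∀ u u' g : Γ, U u → U u' → φ (u * g * u') = φ g

/-- `φ` is supported on finitely many cosets `x U`. -/
def HasFinSupp (U : Γ → Prop) (φ : Γ → ℂ) : Prop :=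
  ∃ F : Finset Γ, ∀ g : Γ, φ g ≠ 0 → ∃ x ∈ F, ∃ u : Γ, U u ∧ g = x * u

/-- The index `[T_y^c : T_y^c ∩ U]`, as the number of cosets `t U`, `t ∈ T_y^c`
(`C y t` says `t ∈ T_y^c`). -/
def cIndex (U : Γ → Prop) (C : Γ → Γ → Prop) (y : Γ) : ℕ :=
  Set.ncard {c : Set Γ | ∃ t : Γ, C y t ∧ c = {g : Γ | ∃ u : Γ, U u ∧ g = t * u}}

/-- **The (twisted) orbital integral as an orbit sum.**  `c` is the sum of
`φ(y) · [T_y^c : T_y^c ∩ U]` over a finite set `R` of representatives of the classes modulo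
`s`-conjugation by `U` which lie in the `s`-conjugacy class of `δ` and on which `φ ≠ 0`. -/
def IsOrbSumGen (s : Γ →* Γ) (U : Γ → Prop) (C : Γ → Γ → Prop) (φ : Γ → ℂ) (δ : Γ) (c : ℂ) :
    Prop :=
  ∃ R : Finset Γ,
    (∀ y ∈ R, ∃ x : Γ, y = x⁻¹ * δ * s x) ∧
    (∀ y ∈ R, ∀ y' ∈ R, (∃ u : Γ, U u ∧ y' = u⁻¹ * y * s u) → y = y') ∧
    (∀ y : Γ, (∃ x : Γ, y = x⁻¹ * δ * s x) → φ y ≠ 0 →
      ∃ y' ∈ R, ∃ u : Γ, U u ∧ y = u⁻¹ * y' * s u) ∧
    c = ∑ y ∈ R, φ y * (cIndex U C y : ℂ)

/-- Convolution with `vol U = 1`: `χ(g) = ∑_{h ∈ Γ/U} φ(h) ψ(h⁻¹ g)` (finite sums, given by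
representatives). -/
def IsConv (U : Γ → Prop) (φ ψ χ : Γ → ℂ) : Prop :=
  ∀ g : Γ, ∃ R : Finset Γ,
    (∀ h ∈ R, ∀ h' ∈ R, (∃ u : Γ, U u ∧ h' = h * u) → h = h') ∧
    (∀ h : Γ, φ h * ψ (h⁻¹ * g) ≠ 0 → ∃ h' ∈ R, ∃ u : Γ, U u ∧ h = h' * u) ∧
    χ g = ∑ h ∈ R, φ h * ψ (h⁻¹ * g)

/-- `f = φ 0 * φ 1 * ⋯ * φ (l-1)` (iterated convolution, `l ≥ 1`). -/
def IsConvProd (U : Γ → Prop) (l : ℕ) (φ : ℕ → Γ → ℂ) (f : Γ → ℂ) : Prop :=
  ∃ χ : ℕ → Γ → ℂ, χ 0 = φ 0 ∧ (∀ m : ℕ, m + 1 < l → IsConv U (χ m) (φ (m + 1)) (χ (m + 1))) ∧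
    f = χ (l - 1)

end OrbitSums

section LocalOrb

variable {k : Type} [Field k] [Valued k Γ₀]

/-- The `s`-twisted orbital integral of `φ` (bi-`U(n)`-invariant) at `δ ∈ GL₂(k)`. -/
def IsTwOrbSum (s : k ≃+* k) (n : ℕ) (φ : GL (Fin 2) k → ℂ) (δ : GL (Fin 2) k) (c : ℂ) : Prop :=
  IsOrbSumGen (glAut s) (InU n) (InTwCentC s) φ δ c

/-- The ordinary orbital integral of `f` (bi-`U(n)`-invariant) at `γ ∈ GL₂(k)`: the twisted one
for `s = 1`. -/
def IsOrbSum (n : ℕ) (f : GL (Fin 2) k → ℂ) (γ : GL (Fin 2) k) (c : ℂ) : Prop :=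
  IsTwOrbSum (RingEquiv.refl k) n f γ c

/-- The cyclic shift of `GL₂(k)^l` (`l ≥ 1`): `(s x)_j = x_{j+1}`. -/
def shiftHom (l : ℕ) [NeZero l] : (Fin l → GL (Fin 2) k) →* (Fin l → GL (Fin 2) k) where
  toFun x := fun j => x (j + 1)
  map_one' := rfl
  map_mul' _ _ := rfl

/-- The twisted orbital integral on `GL₂(k)^l` (split place), level `U(n)^l`. -/
def IsSplitOrbSum (l : ℕ) [NeZero l] (n : ℕ) (φ : (Fin l → GL (Fin 2) k) → ℂ)
    (δ : Fin l → GL (Fin 2) k) (c : ℂ) : Prop :=
  IsOrbSumGen (shiftHom l) (fun u => ∀ j, InU n (u j))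
    (fun y t => t⁻¹ * y * shiftHom l t = y ∧
      ∀ j, Valued.v ((t j : GL (Fin 2) k) : Matrix (Fin 2) (Fin 2) k).trace ≤ 1 ∧
        Valued.v ((t j : GL (Fin 2) k) : Matrix (Fin 2) (Fin 2) k).det = 1) φ δ c

end LocalOrb

/-! ### Satake polynomials and base change of spherical functions -/

/-- The Satake polynomial of the sphere of radius `n`: the eigenvalue of
`1_{K diag(ϖⁿ, 1) K}` on the spherical vector with Satake parameters `x, y` (unitary
normalisation: `T = √q (x + y)`, `S = x y`).  Recursion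
`T · Σ₁ = Σ₂ + (q + 1) S`, `T · Σ_{n+2} = Σ_{n+3} + q S Σ_{n+1}`. -/
def satPoly (q : ℕ) (x y : ℂ) : ℕ → ℂ
  | 0 => 1
  | 1 => ((Real.sqrt q : ℝ) : ℂ) * (x + y)
  | 2 => (((Real.sqrt q : ℝ) : ℂ) * (x + y)) ^ 2 - ((q : ℂ) + 1) * (x * y)
  | (n + 3) => ((Real.sqrt q : ℝ) : ℂ) * (x + y) * satPoly q x y (n + 2)
      - (q : ℂ) * (x * y) * satPoly q x y (n + 1)

/-- The Satake transform of `1_{K diag(ϖ^a, ϖ^b) K}`, `a ≥ b`, at `(x, y)`. -/
def satake (q : ℕ) (lam : ℤ × ℤ) (x y : ℂ) : ℂ :=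
  (x * y) ^ lam.2 * satPoly q x y (lam.1 - lam.2).toNat

/-- A spherical function given by its values on the Cartan invariants: finitely supported on
`{(a, b) : a ≥ b}`. -/
def IsDominant (F : (ℤ × ℤ) →₀ ℂ) : Prop := ∀ lam ∈ F.support, lam.2 ≤ lam.1

/-- **Base change of spherical functions** (`k'/k` unramified of degree `l`, residue fields of
`q` and `q ^ l` elements): `f = b(φ)`, i.e. `f^∨(x, y) = φ^∨(x^l, y^l)`. -/
def IsBC (l q : ℕ) (φ f : (ℤ × ℤ) →₀ ℂ) : Prop :=
  ∀ x y : ℂ, x ≠ 0 → y ≠ 0 →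
    (f.sum fun lam c => c * satake q lam x y)
      = φ.sum fun lam c => c * satake (q ^ l) lam (x ^ l) (y ^ l)

/-! ## Part C.  The local comparison -/

section Comparison

/-- Existence of orbit sums: for `φ` bi-`U(n)`-invariant with finite support and `N δ` regular the
twisted orbital integral exists (the `s`-conjugacy class of `δ` is closed). -/
def OrbSumExC : Prop :=
  ∀ (k k' : Type) [Field k] [Field k'] [Valued k Γ₀] [Valued k' Γ₀] (q l e : ℕ)
    (i : k →+* k') (s : k' ≃+* k'),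
    IsLocalField k q → IsLocalField k' (q ^ (l / e)) → IsLocalExt k k' l e i s →
    ∀ (n : ℕ) (φ : GL (Fin 2) k' → ℂ), IsBiInv (InU n) φ → HasFinSupp (InU n) φ →
    ∀ δ : GL (Fin 2) k', IsReg (twNorm s l δ) → ∃ c : ℂ, IsTwOrbSum s n φ δ c

/-- Uniqueness of orbit sums. -/
def OrbSumUniqC : Prop :=
  ∀ (k : Type) [Field k] [Valued k Γ₀] (s : k ≃+* k),
    (∀ y : k, Valued.v (s y) = Valued.v y) →
    ∀ (n : ℕ) (φ : GL (Fin 2) k → ℂ), IsBiInv (InU n) φ →
    ∀ (δ : GL (Fin 2) k) (c c' : ℂ), IsTwOrbSum s n φ δ c → IsTwOrbSum s n φ δ c' → c = c'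

/-- The matching statement of the fundamental lemma for the `γ` satisfying `P`. -/
def FLMatch (P : ∀ (k : Type) [Field k] [Valued k Γ₀], GL (Fin 2) k → Prop) : Prop :=
  ∀ (k k' : Type) [Field k] [Field k'] [Valued k Γ₀] [Valued k' Γ₀] (q l : ℕ)
    (i : k →+* k') (s : k' ≃+* k'),
    IsLocalField k q → IsLocalField k' (q ^ l) → IsLocalExt k k' l 1 i s → l.Prime →
    ∀ φ f : (ℤ × ℤ) →₀ ℂ, IsDominant φ → IsDominant f → IsBC l q φ f →
    ∀ (δ : GL (Fin 2) k') (γ : GL (Fin 2) k) (c c' : ℂ), IsReg γ → P k γ →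
      IsConj (twNorm s l δ) (Matrix.GeneralLinearGroup.map i γ) →
      IsTwOrbSum s 0 (fun g => φ (cartan g)) δ c →
      IsOrbSum 0 (fun g => f (cartan g)) γ c' → c = c'

/-- `γ` has an eigenvalue in `k`. -/
def HasEigen (k : Type) [Field k] [Valued k Γ₀] (γ : GL (Fin 2) k) : Prop :=
  ∃ x : k, x ^ 2 - (γ : Matrix (Fin 2) (Fin 2) k).trace * x
    + (γ : Matrix (Fin 2) (Fin 2) k).det = 0

/-- The centraliser of `γ` contains an element whose determinant is a uniformiser (for elliptic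
`γ`: `k[γ]/k` is RAMIFIED). -/
def HasRamUnif (k : Type) [Field k] [Valued k Γ₀] (γ : GL (Fin 2) k) : Prop :=
  ∃ t : GL (Fin 2) k, t * γ = γ * t ∧
    Valued.v (t : Matrix (Fin 2) (Fin 2) k).det = WithZero.exp (-1 : ℤ)

/-- **T6.C1** fundamental lemma, `γ` hyperbolic ([L] §5; Iwasawa decomposition, constant term). -/
def FLHypC : Prop := FLMatch fun k _ _ γ => HasEigen k γ

/-- **T6.C2** fundamental lemma, `γ` elliptic, `k[γ]` unramified ([L] §5, count on the tree). -/
def FLEllUnrC : Prop := FLMatch fun k _ _ γ => ¬ HasEigen k γ ∧ ¬ HasRamUnif k γ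

/-- **T6.C3** fundamental lemma, `γ` elliptic, `k[γ]` ramified ([L] §5). -/
def FLEllRamC : Prop := FLMatch fun k _ _ γ => ¬ HasEigen k γ ∧ HasRamUnif k γ

/-- **T6.C4** fundamental lemma, vanishing at the regular `γ` which are not norms ([L] §5). -/
def FLVanishC : Prop :=
  ∀ (k k' : Type) [Field k] [Field k'] [Valued k Γ₀] [Valued k' Γ₀] (q l : ℕ)
    (i : k →+* k') (s : k' ≃+* k'),
    IsLocalField k q → IsLocalField k' (q ^ l) → IsLocalExt k k' l 1 i s → l.Prime →
    ∀ φ f : (ℤ × ℤ) →₀ ℂ, IsDominant φ → IsDominant f → IsBC l q φ f →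
    ∀ (γ : GL (Fin 2) k) (c' : ℂ), IsReg γ → ¬ IsNormFrom l i s γ →
      IsOrbSum 0 (fun g => f (cartan g)) γ c' → c' = 0

/-- **P4 (FUNDAMENTAL LEMMA for the whole spherical Hecke algebra), [L] §5.**  `k'/k`
unramified of prime degree `l`, `f = b(φ)`: the twisted orbital integral of `φ` at `δ` is the
orbital integral of `f` at `γ = N δ` (regular), and the orbital integrals of `f` vanish at the
regular `γ` which are not norms. -/
def FundLemmaC : Prop := (FLMatch fun _ _ _ _ => True) ∧ FLVanishC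

/-- **T6.B4** existence of the base change of a spherical function. -/
def BCExistsC : Prop :=
  ∀ (l q : ℕ), 0 < l → 1 < q → ∀ φ : (ℤ × ℤ) →₀ ℂ, IsDominant φ →
    ∃ f : (ℤ × ℤ) →₀ ℂ, IsDominant f ∧ IsBC l q φ f ∧
      ∀ lam ∈ f.support, (l : ℤ) ∣ lam.1 + lam.2

/-- **P5 (matching at a SPLIT place), [L] §8.**  On `GL₂(k)^l` with the cyclic shift, for a pure
tensor `φ = φ_0 ⊗ ⋯ ⊗ φ_{l-1}` of bi-`U(n)`-invariant functions of finite support and
`f = φ_0 * ⋯ * φ_{l-1}`: the twisted orbital integral of `φ` at `δ` is the orbital integral of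
`f` at `γ = δ_0 δ_1 ⋯ δ_{l-1}`. -/
def SplitMatchC : Prop :=
  ∀ (k : Type) [Field k] [Valued k Γ₀] (q l : ℕ) [NeZero l], IsLocalField k q →
    ∀ (n : ℕ) (φ : ℕ → GL (Fin 2) k → ℂ) (f : GL (Fin 2) k → ℂ),
      (∀ j, IsBiInv (InU n) (φ j)) → (∀ j, HasFinSupp (InU n) (φ j)) →
      IsConvProd (InU n) l φ f →
      ∀ (δ : Fin l → GL (Fin 2) k) (c c' : ℂ), IsReg (twN (shiftHom l) l δ 0) →
        IsSplitOrbSum l n (fun x => ∏ j : Fin l, φ (j : ℕ) (x j)) δ c →
        IsOrbSum n f (twN (shiftHom l) l δ 0) c' → c = c'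

/-- **P6 (matching at the remaining finite places, REGULAR SET), [L] §6.**  `k'/k` cyclic of
prime degree `l` (ramified or not), `φ` bi-`U'(n)`-invariant of finite support: there are `m` and
`f`, bi-`U(m)`-invariant of finite support, with `O_γ(f) = TO_δ(φ)` for `γ = N δ` regular and
`O_γ(f) = 0` for `γ` regular, not a norm. -/
def BadMatchC : Prop :=
  ∀ (k k' : Type) [Field k] [Field k'] [Valued k Γ₀] [Valued k' Γ₀] (q l e : ℕ)
    (i : k →+* k') (s : k' ≃+* k'),
    IsLocalField k q → IsLocalField k' (q ^ (l / e)) → IsLocalExt k k' l e i s → l.Prime →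
    ∀ (n : ℕ) (φ : GL (Fin 2) k' → ℂ), IsBiInv (InU n) φ → HasFinSupp (InU n) φ →
    ∃ (m : ℕ) (f : GL (Fin 2) k → ℂ), IsBiInv (InU m) f ∧ HasFinSupp (InU m) f ∧
      (∀ (δ : GL (Fin 2) k') (γ : GL (Fin 2) k) (c c' : ℂ), IsReg γ →
        IsConj (twNorm s l δ) (Matrix.GeneralLinearGroup.map i γ) →
        IsTwOrbSum s n φ δ c → IsOrbSum m f γ c' → c = c') ∧
      ∀ (γ : GL (Fin 2) k) (c' : ℂ), IsReg γ → ¬ IsNormFrom l i s γ →
        IsOrbSum m f γ c' → c' = 0

/-! ### Spectral side of the spherical functions (T6.B3) and the instances (T6.01) -/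

/-- `H` is a full system of representatives of `K λ K / K`, `K = GL₂(𝒪)`. -/
def IsCosetSys {k : Type} [Field k] [Valued k Γ₀] (lam : ℤ × ℤ) (H : Finset (GL (Fin 2) k)) :
    Prop :=
  (∀ h ∈ H, cartan h = lam) ∧
    (∀ h ∈ H, ∀ h' ∈ H, InU 0 (h⁻¹ * h') → h = h') ∧
    ∀ g : GL (Fin 2) k, cartan g = lam → ∃ h ∈ H, InU 0 (h⁻¹ * g)

/-- **T6.B3 (Satake, eigenvalue form).**  A right `GL₂(𝒪)`-invariant function which is an
eigenfunction of `T = 1_{K diag(ϖ,1) K}` and of `S = 1_{ϖ K}` with eigenvalues `√q (x + y)` and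
`x y` is an eigenfunction of every `1_{K λ K}`, with eigenvalue the Satake polynomial. -/
def SatakeEigenC : Prop :=
  ∀ (k : Type) [Field k] [Valued k Γ₀] (q : ℕ), IsLocalField k q →
    ∀ (Φ : GL (Fin 2) k → ℂ) (x y : ℂ), x ≠ 0 → y ≠ 0 →
      (∀ u g : GL (Fin 2) k, InU 0 u → Φ (g * u) = Φ g) →
      (∀ lam : ℤ × ℤ, lam = (1, 0) ∨ lam = (1, 1) →
        ∀ H : Finset (GL (Fin 2) k), IsCosetSys lam H →
          ∀ g, ∑ h ∈ H, Φ (g * h) = satake q lam x y * Φ g) →
      ∀ lam : ℤ × ℤ, lam.2 ≤ lam.1 →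
        ∀ H : Finset (GL (Fin 2) k), IsCosetSys lam H →
          ∀ g, ∑ h ∈ H, Φ (g * h) = satake q lam x y * Φ g

section Instances

open IsDedekindDomain NumberField

/-- **T6.01a.**  The completion of a number field at a finite place is a local field in the
sense of `IsLocalField`. -/
def InstLocalC : Prop :=
  ∀ (K : Type) [Field K] [NumberField K] (v : HeightOneSpectrum (𝓞 K)),
    IsLocalField (v.adicCompletion K) (Ideal.absNorm v.asIdeal)

/-- **T6.01b.**  `K'/K` cyclic of prime degree `l` with generator `s`, `w` the ONLY place of `K'`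
over the place `v` of `K` (inert or ramified): the inclusion and `s` extend to the completions and
give a cyclic extension of local fields. -/
def InstExtC : Prop :=
  ∀ (K K' : Type) [Field K] [NumberField K] [Field K'] [NumberField K'] [Algebra K K']
    [IsGalois K K'] (s : K' ≃ₐ[K] K'),
    (∀ t : K' ≃ₐ[K] K', t ∈ Subgroup.zpowers s) → (Module.finrank K K').Prime →
    ∀ (v : HeightOneSpectrum (𝓞 K)) (w : HeightOneSpectrum (𝓞 K')),
      (∀ x : 𝓞 K, x ∈ v.asIdeal ↔ algebraMap (𝓞 K) (𝓞 K') x ∈ w.asIdeal) →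
      (∀ w' : HeightOneSpectrum (𝓞 K'),
        (∀ x : 𝓞 K, x ∈ v.asIdeal → algebraMap (𝓞 K) (𝓞 K') x ∈ w'.asIdeal) → w' = w) →
      ∃ (e : ℕ) (i : v.adicCompletion K →+* w.adicCompletion K')
        (sw : w.adicCompletion K' ≃+* w.adicCompletion K'),
        (∀ x : K, i (algebraMap K (v.adicCompletion K) x)
          = algebraMap K' (w.adicCompletion K') (algebraMap K K' x)) ∧
        (∀ y : K', sw (algebraMap K' (w.adicCompletion K') y)
          = algebraMap K' (w.adicCompletion K') (s y)) ∧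
        IsLocalExt (v.adicCompletion K) (w.adicCompletion K') (Module.finrank K K') e i sw ∧
        Ideal.absNorm w.asIdeal = Ideal.absNorm v.asIdeal ^ (Module.finrank K K' / e)

/-- **T6.01c.**  At a place `w` of `K'` over `v` with the same residue field and ramification
index one (in particular: `v` split in `K'`), the completions are isomorphic. -/
def InstSplitC : Prop :=
  ∀ (K K' : Type) [Field K] [NumberField K] [Field K'] [NumberField K'] [Algebra K K']
    (v : HeightOneSpectrum (𝓞 K)) (w : HeightOneSpectrum (𝓞 K')),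
      (∀ x : 𝓞 K, x ∈ v.asIdeal ↔ algebraMap (𝓞 K) (𝓞 K') x ∈ w.asIdeal) →
      Ideal.absNorm w.asIdeal = Ideal.absNorm v.asIdeal →
      (∃ x : 𝓞 K, x ∈ v.asIdeal ∧ algebraMap (𝓞 K) (𝓞 K') x ∉ w.asIdeal ^ 2) →
      ∃ i : v.adicCompletion K ≃+* w.adicCompletion K',
        (∀ x : K, i (algebraMap K (v.adicCompletion K) x)
          = algebraMap K' (w.adicCompletion K') (algebraMap K K' x)) ∧
        ∀ x : v.adicCompletion K, Valued.v (i x) = Valued.v x

end Instances

/-! ### Split places, integral form (any locally compact group; covers the complex places of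
the cubic step, where every infinite place splits) -/

section SplitIntegral

open MeasureTheory

/-- Convolution `(φ * ψ)(g) = ∫ φ(h) ψ(h⁻¹ g) dh`. -/
def convInt {H : Type} [Group H] [MeasurableSpace H] (μ : Measure H) (φ ψ : H → ℂ) (g : H) : ℂ :=
  ∫ h, φ h * ψ (h⁻¹ * g) ∂μ

/-- **T6.D2 (split place, `l = 2`, integral form), [L] §8.**  For a left Haar measure:
`∫ φ₀(x₀⁻¹ δ₀ x₁) φ₁(x₁⁻¹ δ₁ x₀) dx₁ = (φ₀ * φ₁)(x₀⁻¹ δ₀ δ₁ x₀)`. -/
def SplitInt2C : Prop :=
  ∀ (H : Type) [Group H] [TopologicalSpace H] [IsTopologicalGroup H] [LocallyCompactSpace H]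
    [MeasurableSpace H] [BorelSpace H] (μ : Measure H) [μ.IsHaarMeasure]
    (φ₀ φ₁ : H → ℂ) (δ₀ δ₁ x₀ : H),
    ∫ x₁, φ₀ (x₀⁻¹ * δ₀ * x₁) * φ₁ (x₁⁻¹ * δ₁ * x₀) ∂μ
      = convInt μ φ₀ φ₁ (x₀⁻¹ * (δ₀ * δ₁) * x₀)

/-- **T6.D2 (split place, `l = 3`, integral form), [L] §8.** -/
def SplitInt3C : Prop :=
  ∀ (H : Type) [Group H] [TopologicalSpace H] [IsTopologicalGroup H] [LocallyCompactSpace H]
    [MeasurableSpace H] [BorelSpace H] (μ : Measure H) [μ.IsHaarMeasure]
    (φ₀ φ₁ φ₂ : H → ℂ) (δ₀ δ₁ δ₂ x₀ : H),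
    ∫ x₁, φ₀ (x₀⁻¹ * δ₀ * x₁) * (∫ x₂, φ₁ (x₁⁻¹ * δ₁ * x₂) * φ₂ (x₂⁻¹ * δ₂ * x₀) ∂μ) ∂μ
      = convInt μ φ₀ (convInt μ φ₁ φ₂) (x₀⁻¹ * (δ₀ * δ₁ * δ₂) * x₀)

end SplitIntegral

/-! ### Bridge: the orbit sum IS the orbital integral (for the comparison layer of T7) -/

section Bridge

open MeasureTheory

/-- The twisted centraliser `{x : x⁻¹ δ s(x) = δ}` as a subgroup. -/
def twCentSub {Γ : Type} [Group Γ] (s : Γ →* Γ) (δ : Γ) : Subgroup Γ where
  carrier := {x | x⁻¹ * δ * s x = δ}
  one_mem' := by simp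
  mul_mem' := by
    intro a b ha hb
    change _ = δ at ha hb ⊢
    calc (a * b)⁻¹ * δ * s (a * b) = b⁻¹ * (a⁻¹ * δ * s a) * s b := by
          simp [mul_assoc]
      _ = δ := by rw [ha, hb]
  inv_mem' := by
    intro a ha
    change _ = δ at ha ⊢
    calc a⁻¹⁻¹ * δ * s a⁻¹ = a * (a⁻¹ * δ * s a) * (s a)⁻¹ := by rw [ha]; simp
      _ = δ := by simp [mul_assoc]

/-- **T6.19 (bridge).**  `k` a local field, `s` an automorphism of finite order `l` preserving
the valuation, `N δ` regular, `φ` bi-`U(n)`-invariant of finite support with orbit sum `c`.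
For the Haar measure `μ` of `GL₂(k)` with `μ(U(n)) = 1`, the Haar measure `μT` of the twisted
centraliser `T` with `μT(T^c) = 1` and every cut-off function `β ≥ 0` (continuous,
`∫_T β(t x) dt = 1` for all `x`): `∫ φ(x⁻¹ δ s(x)) β(x) dμ(x) = c`.
(So `c = ∫_{T \ G} φ(x⁻¹ δ s(x)) dx` for the quotient of these measures.) -/
def OrbSumIntC : Prop :=
  ∀ (k : Type) [Field k] [Valued k Γ₀] (q l : ℕ) (s : k ≃+* k), IsLocalField k q →
    (∀ y : k, Valued.v (s y) = Valued.v y) → 0 < l → (∀ y : k, (s ^ l) y = y) →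
    ∀ (n : ℕ) (φ : GL (Fin 2) k → ℂ), IsBiInv (InU n) φ → HasFinSupp (InU n) φ →
    ∀ (δ : GL (Fin 2) k) (c : ℂ), IsReg (twNorm s l δ) → IsTwOrbSum s n φ δ c →
    ∀ μ : @Measure (GL (Fin 2) k) (borel _),
      @Measure.IsHaarMeasure _ _ _ (borel _) μ → μ {g | InU n g} = 1 →
    ∀ μT : @Measure (twCentSub (glAut s) δ) (borel _),
      @Measure.IsHaarMeasure _ _ _ (borel _) μT →
      μT {t | Valued.v ((t : GL (Fin 2) k) : Matrix (Fin 2) (Fin 2) k).trace ≤ 1 ∧
        Valued.v ((t : GL (Fin 2) k) : Matrix (Fin 2) (Fin 2) k).det = 1} = 1 →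
    ∀ β : GL (Fin 2) k → ℝ, Continuous β → (∀ x, 0 ≤ β x) →
      (∀ x : GL (Fin 2) k,
        @integral _ _ _ _ (borel _) μT
          (fun t : twCentSub (glAut s) δ => β ((t : GL (Fin 2) k) * x)) = 1) →
      @integral _ _ _ _ (borel _) μ
        (fun x : GL (Fin 2) k => φ (x⁻¹ * δ * glAut s x) * (β x : ℂ)) = c

end Bridge

/-! ## The tower Prop and the top -/

/-- **THE TOWER PROP of T6** (consumers: T5 uses `NormClassC`; T7 uses everything). -/
def T6Out : Prop :=
  NormClassC ∧ NormInjC ∧ TwCentC ∧ NormImageTCC ∧ NormImageQC ∧ InstLocalC ∧ InstExtC ∧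
    InstSplitC ∧
    OrbSumExC ∧ OrbSumUniqC ∧ OrbSumIntC ∧ SatakeEigenC ∧ BCExistsC ∧ FundLemmaC ∧
    SplitMatchC ∧ SplitInt2C ∧ SplitInt3C ∧ BadMatchC

/-- The fundamental lemma from its three cases and the vanishing statement. -/
theorem fundLemma_of_cases (h1 : FLHypC) (h2 : FLEllUnrC) (h3 : FLEllRamC) (h4 : FLVanishC) :
    FundLemmaC := by
  refine ⟨?_, h4⟩
  intro k k' _ _ _ _ q l i s hk hk' hext hl φ f hφ hf hbc δ γ c c' hreg _ hconj hc hc'
  by_cases he : HasEigen k γ
  · exact h1 k k' q l i s hk hk' hext hl φ f hφ hf hbc δ γ c c' hreg he hconj hc hc'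
  · by_cases hr : HasRamUnif k γ
    · exact h3 k k' q l i s hk hk' hext hl φ f hφ hf hbc δ γ c c' hreg ⟨he, hr⟩ hconj hc hc'
    · exact h2 k k' q l i s hk hk' hext hl φ f hφ hf hbc δ γ c c' hreg ⟨he, hr⟩ hconj hc hc'

/-- **TOP of T6**: the tower Prop from the sub-leaves.  The two `NormImage` Props are
hypothesis-parametrised on the Hasse norm theorem of tower CFT in the two cases used
(`HasseNormTCC → NormImageTCC`, `HasseNormQC → NormImageQC` are the sub-leaves A3). -/
theorem top (hasseTC : HasseNormTCC) (hasseQ : HasseNormQC)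
    (a1 : NormClassC) (a2 : NormInjC) (a2' : TwCentC) (a3 : HasseNormTCC → NormImageTCC)
    (a3q : HasseNormQC → NormImageQC)
    (i1 : InstLocalC) (i2 : InstExtC) (i3 : InstSplitC)
    (b1 : OrbSumExC) (b2 : OrbSumUniqC) (b5 : OrbSumIntC) (b3 : SatakeEigenC) (b4 : BCExistsC)
    (c1 : FLHypC) (c2 : FLEllUnrC) (c3 : FLEllRamC) (c4 : FLVanishC)
    (d1 : SplitMatchC) (d2 : SplitInt2C) (d3 : SplitInt3C) (e1 : BadMatchC) : T6Out :=
  ⟨a1, a2, a2', a3 hasseTC, a3q hasseQ, i1, i2, i3, b1, b2, b5, b3, b4,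
    fundLemma_of_cases c1 c2 c3 c4, d1, d2, d3, e1⟩

end Comparison

/-! ## Equation lemmas of the definitions by recursion, REALISED ONCE

ADDITIVE (row-lead helper17, 15:45Z; fix of helper112 / helper8, see
`coord/LT-collision-helper8.md`): `simp [twN]`, `rw [twN]`, `unfold twN` realise `twN.eq_def`
in the using module unless an imported module has done so; two such copies differ and the
grader's kernel checker rejects the closure.  Realised here, they are declared by no other
module.  Nothing above this line is changed. -/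

theorem twN_eqns_realised : True := by
  have _h1 := @twN.eq_def
  have _h2 := @twN.eq_1
  have _h3 := @twN.eq_2
  trivial

theorem satPoly_eqns_realised : True := by
  have _h0 := @satPoly.eq_def
  have _h1 := @satPoly.eq_1
  have _h2 := @satPoly.eq_2
  have _h3 := @satPoly.eq_3
  have _h4 := @satPoly.eq_4
  trivial

end Fermat.Agent.LT.T6

end
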