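import Mathlib
import Fermat.Agent.LT.T6.Spec

/-!
# Row LT, tower T6 (helper22, architect): P7 = ARCHIMEDEAN MATCHING for `ℂ/ℝ` — SPEC

OFF-MAIN.  Definitions and Props only (one formal top).  `LT/T6/Spec.lean` v3 is NOT touched.

Only the quadratic step `F/ℚ` (`F = ℚ(√-3)`) needs this file: there the infinite place does not
split.  (Cubic step `E/F`: every infinite place splits, `SplitInt3C` applies.)

## Frame (= the `K_∞`-type frame of `T5/Spec.lean` v3, ruling R6 of the chief helper797)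

* downstairs `GL₂(ℝ)`, `K = SO(2)`, weight `n ∈ ℤ`: `wtChar n (rotation of angle θ) = e^{inθ}`;
  a test function of weight `n` satisfies `f(k₁ g k₂) = wtChar n k₁⁻¹ · wtChar n k₂⁻¹ · f(g)`
  (the convention of `T5.IsBiInvariant`), is continuous, compactly supported, smooth, and is
  supported in `det > 0`;
* upstairs `GL₂(ℂ)`, `K = U(2)`, `σ =` complex conjugation (`starRingAut`), test functions
  bi-`U(2)`-invariant.

FACT: the target `π_∞ = π(1, sgn)` (weight one) has no `SO(2)`-fixed vector, so the function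
matching a bi-`U(2)`-invariant `φ` is `f = f₀ + f₁`, `f₀` of weight `0`, `f₁` of weight `±1`.
Over `ℚ` the trace identity is used TWICE (`τ = 1` with `f₀`, `τ =` weight `n` with `f₁`) and the
two identities are added.

## The Props

* `ArchMatchC` : for all Haar measures there are constants `c₀, c₁ ≠ 0` such that every `φ` has
  `f₀, f₁` with (a) GEOMETRIC MATCHING at every regular `γ ∈ GL₂(ℝ)`
  (`O_γ(f₀ + f₁) = TO_δ(φ)` if `γ = δ δ̄`, `= 0` if `γ` is not a norm; cut-off form of the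
  orbital integrals, as in `OrbSumIntC`, the SAME Haar measure of the centraliser on both sides)
  and (b) SPECTRAL RELATION `∫ f₀ P_s = c₀ ∫ φ R_{2s}`, `∫ f₁ Q_s = c₁ ∫ φ R_{2s}` for all
  `s ∈ ℂ` (base change of the parameter: `s ↦ ν = 2s`).
* `ArchInjC`   : a test function of weight `0, ±1` with vanishing spherical transform has
  vanishing central average (so the matching is multiplicative for the convolution, up to a
  constant and modulo the centre).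
* `ArchClassC` : the eigenvalue function of a continuous joint eigenfunction of the circle
  means of weight `n ∈ {0, ±1}` is `P_s` resp. `q_s` for some `s ∈ ℂ`.

## Evidence (script `coord/LT-T6-arch-numerics.py`, memo `coord/LT-T6-interface.md` v4)

The formulas below were checked numerically (evenness in `s`, `q₀ = 1/cosh(t/2)`, closed form
of `R_ν`).  The elliptic case of (a) was checked numerically for `φ = exp(-a ρ)` (`a = 0.7, 1.5,
3`): with `f₀`, `f₁` defined by Abel inversion from the hyperbolic matching, the ratio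
`O_γ(f₀ + f₁) / TO_δ(φ)` at `γ = k_θ`, `δ = k_{θ/2}` is the SAME constant `2a/π` for
`θ = 0.4 … 5.34` (both `θ` and `θ + π`), and this constant is the one of the hyperbolic case
for the same Haar measures.

## The functions

`ρ(y) = tr(yᵀ y) / (2 |det y|) = cosh t` for `y = z k₁ diag(e^{t/2}, e^{-t/2}) k₂`;
`P_s(ρ) = (1/2π) ∫₀^{2π} (ρ - cos u √(ρ²-1))^{-s-1/2} du` (Legendre `P_{s-1/2}`, even in `s`);
`q_s(ρ) = (1/2π) ∫₀^{2π} (√((ρ+1)/2) - cos u √((ρ-1)/2)) (ρ - cos u √(ρ²-1))^{-s-1} du`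
(weight one, even in `s`, `q₀ = 1/cosh(t/2)`);
`R_ν(ρ) = (1/2) ∫_{-1}^{1} (ρ + x √(ρ²-1))^{-1-ν} dx = sinh(ν d) / (ν sinh d)`, `ρ = cosh d`
(`ν = 0`: `d / sinh d`, `A0.MeanValueComplex`; `s = 0`: `A0.MeanValueReal`).
-/

set_option autoImplicit false

open scoped Matrix ContDiff
open MeasureTheory

noncomputable section

namespace Fermat.Agent.LT.T6

/-! ## 1. Groups, weights, test functions -/

/-- `k ∈ SO(2)`. -/
def InSO2 (k : GL (Fin 2) ℝ) : Prop :=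
  (k : Matrix (Fin 2) (Fin 2) ℝ) * (k : Matrix (Fin 2) (Fin 2) ℝ).transpose = 1 ∧
    (k : Matrix (Fin 2) (Fin 2) ℝ).det = 1

/-- `k ∈ U(2)`. -/
def InU2 (k : GL (Fin 2) ℂ) : Prop :=
  (k : Matrix (Fin 2) (Fin 2) ℂ) * (k : Matrix (Fin 2) (Fin 2) ℂ).conjTranspose = 1

/-- The "holomorphic part" `A(y) = ((a + d) + i (c - b)) / 2` of `y = !![a, b; c, d]`: `y` acts on
`ℂ = ℝ²` by `w ↦ A w + B w̄`.  `A(k_α y k_β) = e^{i(α+β)} A(y)`, `|A|² - |B|² = det y`. -/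
def holPart (y : GL (Fin 2) ℝ) : ℂ :=
  ((((y : Matrix (Fin 2) (Fin 2) ℝ) 0 0 + (y : Matrix (Fin 2) (Fin 2) ℝ) 1 1 : ℝ) : ℂ) +
    (((y : Matrix (Fin 2) (Fin 2) ℝ) 1 0 - (y : Matrix (Fin 2) (Fin 2) ℝ) 0 1 : ℝ) : ℂ) *
      Complex.I) / 2

/-- The character of weight `n` of `SO(2)`: the rotation `!![cos θ, -sin θ; sin θ, cos θ]` goes
to `e^{inθ}`. -/
def wtChar (n : ℤ) (k : GL (Fin 2) ℝ) : ℂ := holPart k ^ n

/-- The phase of weight `n`: `(A(y) / |A(y)|)^n` (`= e^{in(α+β)}` for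
`y = z k_α diag(e^{t/2}, e^{-t/2}) k_β`, `z > 0`). -/
def wtPhase (n : ℤ) (y : GL (Fin 2) ℝ) : ℂ := (holPart y / (‖holPart y‖ : ℂ)) ^ n

/-- Test functions of weight `n` on `GL₂(ℝ)`: continuous, compactly supported, smooth along
every smooth family (the shape of `T5.IsSmoothAtInf`), supported in `det > 0`, of weight `n`
on both sides (the convention of `T5.IsBiInvariant`). -/
structure IsArchTestR (n : ℤ) (f : GL (Fin 2) ℝ → ℂ) : Prop where
  cont : Continuous f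
  supp : HasCompactSupport f
  smooth : ∀ (m : ℕ) (h : (Fin m → ℝ) → GL (Fin 2) ℝ),
    (∀ i j : Fin 2, ContDiff ℝ ∞ (fun t => ((h t : GL (Fin 2) ℝ) : Matrix (Fin 2) (Fin 2) ℝ) i j)) →
    ∀ g : GL (Fin 2) ℝ, ContDiff ℝ ∞ (fun t => f (g * h t))
  pos : ∀ g : GL (Fin 2) ℝ, f g ≠ 0 → 0 < (g : Matrix (Fin 2) (Fin 2) ℝ).det
  left : ∀ k g : GL (Fin 2) ℝ, InSO2 k → f (k * g) = (wtChar n k)⁻¹ * f g
  right : ∀ k g : GL (Fin 2) ℝ, InSO2 k → f (g * k) = (wtChar n k)⁻¹ * f g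

/-- Test functions on `GL₂(ℂ)`: continuous, compactly supported, smooth, bi-`U(2)`-invariant. -/
structure IsArchTestC (φ : GL (Fin 2) ℂ → ℂ) : Prop where
  cont : Continuous φ
  supp : HasCompactSupport φ
  smooth : ∀ (m : ℕ) (h : (Fin m → ℝ) → GL (Fin 2) ℂ),
    (∀ i j : Fin 2, ContDiff ℝ ∞ (fun t => ((h t : GL (Fin 2) ℂ) : Matrix (Fin 2) (Fin 2) ℂ) i j)) →
    ∀ g : GL (Fin 2) ℂ, ContDiff ℝ ∞ (fun t => φ (g * h t))
  left : ∀ k g : GL (Fin 2) ℂ, InU2 k → φ (k * g) = φ g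
  right : ∀ k g : GL (Fin 2) ℂ, InU2 k → φ (g * k) = φ g

/-! ## 2. Radial coordinate and the three families of spherical functions -/

/-- `ρ(y) = tr(yᵀ y) / (2 |det y|)` `= cosh t` for `y = z k₁ diag(e^{t/2}, e^{-t/2}) k₂`. -/
def rhoR (y : GL (Fin 2) ℝ) : ℝ :=
  ((y : Matrix (Fin 2) (Fin 2) ℝ).transpose * (y : Matrix (Fin 2) (Fin 2) ℝ)).trace /
    (2 * |(y : Matrix (Fin 2) (Fin 2) ℝ).det|)

/-- `ρ(y) = tr(y* y) / (2 |det y|)` `= cosh d` for `y = z k₁ diag(e^{d/2}, e^{-d/2}) k₂`,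
`z ∈ ℂˣ`, `k₁, k₂ ∈ U(2)`. -/
def rhoC (y : GL (Fin 2) ℂ) : ℝ :=
  (((y : Matrix (Fin 2) (Fin 2) ℂ).conjTranspose * (y : Matrix (Fin 2) (Fin 2) ℂ)).trace).re /
    (2 * ‖(y : Matrix (Fin 2) (Fin 2) ℂ).det‖)

/-- The spherical function of weight `0` and parameter `s` on `GL₂(ℝ)`, as a function of
`ρ = cosh t`: `P_{s - 1/2}(cosh t)`. -/
def sphR0 (s : ℂ) (ρ : ℝ) : ℂ :=
  ((1 / (2 * Real.pi) : ℝ) : ℂ) * ∫ u in (0 : ℝ)..(2 * Real.pi),
    ((ρ - Real.cos u * Real.sqrt (ρ ^ 2 - 1) : ℝ) : ℂ) ^ (-s - 1 / 2)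

/-- The radial part of the spherical function of weight `±1` and parameter `s` on `GL₂(ℝ)`, as a
function of `ρ = cosh t` (`s = 0`: `1 / cosh (t/2)`). -/
def sphR1 (s : ℂ) (ρ : ℝ) : ℂ :=
  ((1 / (2 * Real.pi) : ℝ) : ℂ) * ∫ u in (0 : ℝ)..(2 * Real.pi),
    ((Real.sqrt ((ρ + 1) / 2) - Real.cos u * Real.sqrt ((ρ - 1) / 2) : ℝ) : ℂ) *
      ((ρ - Real.cos u * Real.sqrt (ρ ^ 2 - 1) : ℝ) : ℂ) ^ (-s - 1)

/-- The spherical function of parameter `ν` on `GL₂(ℂ)`, as a function of `ρ = cosh d`: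
`sinh (ν d) / (ν sinh d)`. -/
def sphC (ν : ℂ) (ρ : ℝ) : ℂ :=
  (1 / 2 : ℂ) * ∫ x in (-1 : ℝ)..1,
    ((ρ + x * Real.sqrt (ρ ^ 2 - 1) : ℝ) : ℂ) ^ (-1 - ν)

/-- The radial part of the spherical function of weight `n ∈ {0, 1, -1}` (`sphR0` for `n = 0`,
`sphR1` otherwise). -/
def sphRad (n : ℤ) (s : ℂ) (ρ : ℝ) : ℂ := if n = 0 then sphR0 s ρ else sphR1 s ρ

/-- The spherical function of weight `n ∈ {0, 1, -1}` and parameter `s` on `GL₂(ℝ)` (`det > 0`):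
`Q(k_α y k_β) = e^{in(α+β)} Q(y)`, `Q(z y) = Q(y)` for `z > 0`, `Q(1) = 1`. -/
def sphFn (n : ℤ) (s : ℂ) (y : GL (Fin 2) ℝ) : ℂ := wtPhase n y * sphRad n s (rhoR y)

/-- The spherical transform of weight `n` of `f` at `s`: the eigenvalue of
`R(f) e (x) = ∫ f(y) e(x y) dy` on the eigenfunctions `e` of weight `n` and parameter `s`. -/
def sphTransR (μ : @Measure (GL (Fin 2) ℝ) (borel _)) (n : ℤ) (f : GL (Fin 2) ℝ → ℂ) (s : ℂ) : ℂ :=
  @integral _ _ _ _ (borel _) μ (fun y : GL (Fin 2) ℝ => f y * sphFn n s y)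

/-- The spherical transform of `φ` on `GL₂(ℂ)` at `ν`. -/
def sphTransC (μ' : @Measure (GL (Fin 2) ℂ) (borel _)) (φ : GL (Fin 2) ℂ → ℂ) (ν : ℂ) : ℂ :=
  @integral _ _ _ _ (borel _) μ' (fun y : GL (Fin 2) ℂ => φ y * sphC ν (rhoC y))

/-! ## 3. Geometric matching -/

/-- **Geometric matching at the real place** of `φ` on `GL₂(ℂ)` and `f` on `GL₂(ℝ)`, for the
Haar measures `μ`, `μ'`: for every regular `γ ∈ GL₂(ℝ)`, every Haar measure `μT` of its
centraliser `T` and all cut-off functions `β` on `GL₂(ℝ)`, `β'` on `GL₂(ℂ)` (continuous, `≥ 0`,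
`∫_T β(t x) dt = 1` for all `x`):
`∫ f(x⁻¹ γ x) β(x) dμ(x) = ∫ φ(x⁻¹ δ x̄) β'(x) dμ'(x)` if `δ δ̄ = γ`, and
`∫ f(x⁻¹ γ x) β(x) dμ(x) = 0` if `γ` is not a norm.  (The twisted centraliser of `δ` is the
image of `T`: `TwCentC`.) -/
def IsArchMatch (μ : @Measure (GL (Fin 2) ℝ) (borel _)) (μ' : @Measure (GL (Fin 2) ℂ) (borel _))
    (φ : GL (Fin 2) ℂ → ℂ) (f : GL (Fin 2) ℝ → ℂ) : Prop :=
  ∀ γ : GL (Fin 2) ℝ, IsReg γ →
    ∀ μT : @Measure (twCentSub (MonoidHom.id (GL (Fin 2) ℝ)) γ) (borel _),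
      @Measure.IsHaarMeasure _ _ _ (borel _) μT →
    ∀ β : GL (Fin 2) ℝ → ℝ, Continuous β → (∀ x, 0 ≤ β x) →
      (∀ x : GL (Fin 2) ℝ,
        @integral _ _ _ _ (borel _) μT
          (fun t : twCentSub (MonoidHom.id (GL (Fin 2) ℝ)) γ =>
            β ((t : GL (Fin 2) ℝ) * x)) = 1) →
      (∀ δ : GL (Fin 2) ℂ,
        twNorm (starRingAut : ℂ ≃+* ℂ) 2 δ
          = Matrix.GeneralLinearGroup.map (algebraMap ℝ ℂ) γ →
        ∀ β' : GL (Fin 2) ℂ → ℝ, Continuous β' → (∀ x, 0 ≤ β' x) →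
          (∀ x : GL (Fin 2) ℂ,
            @integral _ _ _ _ (borel _) μT
              (fun t : twCentSub (MonoidHom.id (GL (Fin 2) ℝ)) γ =>
                β' (Matrix.GeneralLinearGroup.map (algebraMap ℝ ℂ) (t : GL (Fin 2) ℝ) * x))
              = 1) →
          @integral _ _ _ _ (borel _) μ
              (fun x : GL (Fin 2) ℝ => f (x⁻¹ * γ * x) * (β x : ℂ))
            = @integral _ _ _ _ (borel _) μ'
              (fun x : GL (Fin 2) ℂ =>
                φ (x⁻¹ * δ * glAut (starRingAut : ℂ ≃+* ℂ) x) * (β' x : ℂ))) ∧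
      (¬ IsNormFrom 2 (algebraMap ℝ ℂ) (starRingAut : ℂ ≃+* ℂ) γ →
        @integral _ _ _ _ (borel _) μ
          (fun x : GL (Fin 2) ℝ => f (x⁻¹ * γ * x) * (β x : ℂ)) = 0)

/-! ## 4. THE PROPS -/

/-- **P7 (archimedean matching, `ℂ/ℝ`), [L] §§7-8, Shintani.**  For all Haar measures `μ` of
`GL₂(ℝ)`, `μ'` of `GL₂(ℂ)` and each weight `n = ±1` there are constants `c₀, c₁ ≠ 0` such that
every bi-`U(2)`-invariant test function `φ` on `GL₂(ℂ)` has test functions `f₀` of weight `0`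
and `f₁` of weight `n` on `GL₂(ℝ)` with: (a) `f₀ + f₁` matches `φ` geometrically; (b) for all
`s ∈ ℂ`, `∫ f₀ P_s = c₀ ∫ φ R_{2s}` and `∫ f₁ Q_s = c₁ ∫ φ R_{2s}`. -/
def ArchMatchC : Prop :=
  ∀ (μ : @Measure (GL (Fin 2) ℝ) (borel _)) (μ' : @Measure (GL (Fin 2) ℂ) (borel _)),
    @Measure.IsHaarMeasure _ _ _ (borel _) μ → @Measure.IsHaarMeasure _ _ _ (borel _) μ' →
    ∀ n : ℤ, n = 1 ∨ n = -1 →
    ∃ c₀ c₁ : ℂ, c₀ ≠ 0 ∧ c₁ ≠ 0 ∧
      ∀ φ : GL (Fin 2) ℂ → ℂ, IsArchTestC φ →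
        ∃ f₀ f₁ : GL (Fin 2) ℝ → ℂ, IsArchTestR 0 f₀ ∧ IsArchTestR n f₁ ∧
          IsArchMatch μ μ' φ (fun g => f₀ g + f₁ g) ∧
          (∀ s : ℂ, sphTransR μ 0 f₀ s = c₀ * sphTransC μ' φ (2 * s)) ∧
          (∀ s : ℂ, sphTransR μ n f₁ s = c₁ * sphTransC μ' φ (2 * s))

/-- **Injectivity of the spherical transform** in the weights `0, ±1`, modulo the centre
(Abel inversion): if the spherical transform of a test function `f` of weight `n` vanishes, the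
central average `g ↦ ∫_{r > 0} f(r g) dr / r` of `f` vanishes.  (`Z r` = the scalar matrix `r`.
Only the central average of `f_∞` acts on the functions invariant under the positive scalars; so
the matching `φ ↦ (f₀, f₁)` is multiplicative for the convolution, up to a constant and modulo
the centre.) -/
def ArchInjC : Prop :=
  ∀ (μ : @Measure (GL (Fin 2) ℝ) (borel _)), @Measure.IsHaarMeasure _ _ _ (borel _) μ →
    ∀ n : ℤ, n = 0 ∨ n = 1 ∨ n = -1 →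
    ∀ f : GL (Fin 2) ℝ → ℂ, IsArchTestR n f →
      (∀ s : ℂ, sphTransR μ n f s = 0) →
      ∀ Z : ℝ → GL (Fin 2) ℝ,
        (∀ r : ℝ, 0 < r →
          ((Z r : GL (Fin 2) ℝ) : Matrix (Fin 2) (Fin 2) ℝ) = Matrix.diagonal (fun _ => r)) →
        ∀ g : GL (Fin 2) ℝ, (∫ r in Set.Ioi (0 : ℝ), f (Z r * g) / (r : ℂ)) = 0

/-- **Classification of the eigenvalue functions** in the weights `0, ±1`: if `e ≠ 0` is
continuous on `GL₂(ℝ)`, of weight `n` on the right (`e(g k) = wtChar n k · e(g)`), invariant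
under the positive scalars, and a joint eigenfunction of the circle means
`(M_t e)(x) = (1/2π) ∫₀^{2π} e(x k_θ a_t k_θ⁻¹) dθ` with eigenvalues `m t`, then for some `s ∈ ℂ`:
`m t = sphRad n s (cosh t)` for all `t > 0`. -/
def ArchClassC : Prop :=
  ∀ n : ℤ, n = 0 ∨ n = 1 ∨ n = -1 →
    ∀ (e : GL (Fin 2) ℝ → ℂ) (m : ℝ → ℂ), Continuous e → (∃ g, e g ≠ 0) →
      (∀ k g : GL (Fin 2) ℝ, InSO2 k → e (g * k) = wtChar n k * e g) →
      (∀ (z g : GL (Fin 2) ℝ) (r : ℝ), 0 < r →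
        (z : Matrix (Fin 2) (Fin 2) ℝ) = Matrix.diagonal (fun _ => r) → e (g * z) = e g) →
      (∀ t : ℝ, 0 < t → ∀ Y : ℝ → GL (Fin 2) ℝ,
        (∀ θ : ℝ, ((Y θ : GL (Fin 2) ℝ) : Matrix (Fin 2) (Fin 2) ℝ)
          = !![Real.cos θ, -Real.sin θ; Real.sin θ, Real.cos θ]
            * !![Real.exp (t / 2), 0; 0, Real.exp (-(t / 2))]
            * !![Real.cos θ, Real.sin θ; -Real.sin θ, Real.cos θ]) →
        ∀ x : GL (Fin 2) ℝ,
          (∫ θ in (0 : ℝ)..(2 * Real.pi), e (x * Y θ)) = ((2 * Real.pi : ℝ) : ℂ) * m t * e x) →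
      ∃ s : ℂ, ∀ t : ℝ, 0 < t → m t = sphRad n s (Real.cosh t)

/-! ## 5. The archimedean output of T6 and the formal top -/

/-- **THE ARCHIMEDEAN PART of the output of T6** (consumer: T7, node `DescQ3C` only). -/
def T6ArchOut : Prop := ArchMatchC ∧ ArchInjC ∧ ArchClassC

/-- Formal top of the archimedean part. -/
theorem topArch (h1 : ArchMatchC) (h2 : ArchInjC) (h3 : ArchClassC) : T6ArchOut :=
  ⟨h1, h2, h3⟩

end Fermat.Agent.LT.T6

end
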