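import Mathlib
import Fermat.Agent.LT.T6.Spec

/-!
# Row LT, tower T6 (helper22, architect): the TAME form of `BadMatchC` — ADDITIVE SPEC

OFF-MAIN.  `LT/T6/Spec.lean` v3 is NOT touched.  Ruling on the requests of helper301 (#16487),
helper983 (#16520), helper288 (#16533).

`BadMatchC` as typed contains the WILD quadratic ramified case (`l = 2`, `e = 2`, residue
characteristic `2`).  Through the quaternion case at a central non-norm it is equivalent to the
norm index theorem for the quadratic extensions of a DYADIC field.  The wall never meets it: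

* cubic step `E/F`: `l = 3` (no quaternion case; `CenOddC`, `CenNormC` are uniform);
* quadratic step `ℚ(√-3)/ℚ`: ramified at `3` only (tame), `2` is inert (`e = 1`).

So the output of T6 is `T6OutTame` = `T6Out` with `BadMatchC` replaced by `BadMatchTameC`
(extra hypothesis `l = 2 → e = 2 → v(2) = 1`).  `T6Out → T6OutTame` is formal
(`t6OutTame_of_t6Out`), so nothing proved for `T6Out` is lost.  The consumer (T7, node
`DescQ3C`) supplies the hypothesis at its places: at a place `v ∣ p` of `ℚ` ramified in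
`ℚ(√-3)`, `p = 3` and `2` is a unit.
-/

set_option autoImplicit false

open scoped Matrix

noncomputable section

namespace Fermat.Agent.LT.T6

/-- **P6, TAME FORM.**  `BadMatchC` with one more hypothesis, placed after `l.Prime`: in the
quadratic ramified case the residue characteristic is odd (`l = 2 → e = 2 → v(2) = 1`).
Everything else is `BadMatchC` verbatim. -/
def BadMatchTameC : Prop :=
  ∀ (k k' : Type) [Field k] [Field k'] [Valued k Γ₀] [Valued k' Γ₀] (q l e : ℕ)
    (i : k →+* k') (s : k' ≃+* k'),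
    IsLocalField k q → IsLocalField k' (q ^ (l / e)) → IsLocalExt k k' l e i s → l.Prime →
    (l = 2 → e = 2 → Valued.v (2 : k) = 1) →
    ∀ (n : ℕ) (φ : GL (Fin 2) k' → ℂ), IsBiInv (InU n) φ → HasFinSupp (InU n) φ →
    ∃ (m : ℕ) (f : GL (Fin 2) k → ℂ), IsBiInv (InU m) f ∧ HasFinSupp (InU m) f ∧
      (∀ (δ : GL (Fin 2) k') (γ : GL (Fin 2) k) (c c' : ℂ), IsReg γ →
        IsConj (twNorm s l δ) (Matrix.GeneralLinearGroup.map i γ) →
        IsTwOrbSum s n φ δ c → IsOrbSum m f γ c' → c = c') ∧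
      ∀ (γ : GL (Fin 2) k) (c' : ℂ), IsReg γ → ¬ IsNormFrom l i s γ →
        IsOrbSum m f γ c' → c' = 0

/-- The full statement implies the tame one. -/
theorem badMatchTame_of_badMatch (h : BadMatchC) : BadMatchTameC :=
  fun k k' _ _ _ _ q l e i s hk hk' hext hl _ n φ hφ hφ' =>
    h k k' q l e i s hk hk' hext hl n φ hφ hφ'

/-- **THE TOWER PROP of T6, tame form** (what T7 consumes): `T6Out` with `BadMatchTameC` in the
place of `BadMatchC`. -/
def T6OutTame : Prop :=
  NormClassC ∧ NormInjC ∧ TwCentC ∧ NormImageTCC ∧ NormImageQC ∧ InstLocalC ∧ InstExtC ∧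
    InstSplitC ∧
    OrbSumExC ∧ OrbSumUniqC ∧ OrbSumIntC ∧ SatakeEigenC ∧ BCExistsC ∧ FundLemmaC ∧
    SplitMatchC ∧ SplitInt2C ∧ SplitInt3C ∧ BadMatchTameC

/-- `T6Out → T6OutTame`. -/
theorem t6OutTame_of_t6Out (h : T6Out) : T6OutTame := by
  obtain ⟨a1, a2, a2', a3, a3q, i1, i2, i3, b1, b2, b5, b3, b4, c, d1, d2, d3, e1⟩ := h
  exact ⟨a1, a2, a2', a3, a3q, i1, i2, i3, b1, b2, b5, b3, b4, c, d1, d2, d3,
    badMatchTame_of_badMatch e1⟩

/-- **TOP of T6, tame form**: as `top`, with `BadMatchTameC` as last sub-leaf. -/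
theorem topTame (hasseTC : HasseNormTCC) (hasseQ : HasseNormQC)
    (a1 : NormClassC) (a2 : NormInjC) (a2' : TwCentC) (a3 : HasseNormTCC → NormImageTCC)
    (a3q : HasseNormQC → NormImageQC)
    (i1 : InstLocalC) (i2 : InstExtC) (i3 : InstSplitC)
    (b1 : OrbSumExC) (b2 : OrbSumUniqC) (b5 : OrbSumIntC) (b3 : SatakeEigenC) (b4 : BCExistsC)
    (c1 : FLHypC) (c2 : FLEllUnrC) (c3 : FLEllRamC) (c4 : FLVanishC)
    (d1 : SplitMatchC) (d2 : SplitInt2C) (d3 : SplitInt3C) (e1 : BadMatchTameC) : T6OutTame :=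
  ⟨a1, a2, a2', a3 hasseTC, a3q hasseQ, i1, i2, i3, b1, b2, b5, b3, b4,
    fundLemma_of_cases c1 c2 c3 c4, d1, d2, d3, e1⟩

end Fermat.Agent.LT.T6

end
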