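import Mathlib
import Fermat.Agent.LT.T6.Spec
import Fermat.Agent.LT.T6.SpecArch
import Fermat.Agent.LT.T6.H49.HasseTC
import Fermat.Agent.LT.T6.H137.Closed
import Fermat.Agent.LT.T6.H219.LocalC
import Fermat.Agent.LT.T6.H176.InstLocal
import Fermat.Agent.LT.T6.H267.InstExt
import Fermat.Agent.LT.T6.H116.InstSplit
import Fermat.Agent.LT.T6.H981.NormClass
import Fermat.Agent.LT.T6.H848.NormInj
import Fermat.Agent.LT.T6.H166.TwCent
import Fermat.Agent.LT.T6.H502.NormImage
import Fermat.Agent.LT.T6.H420.OrbSumExFull
import Fermat.Agent.LT.T6.H944.OrbSumUniq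
import Fermat.Agent.LT.T6.H846.OrbSumInt
import Fermat.Agent.LT.T6.H305.SatakeEigen
import Fermat.Agent.LT.T6.H999.BCExists
import Fermat.Agent.LT.T6.H288.HypClosed
import Fermat.Agent.LT.T6.H60.Closed613
import Fermat.Agent.LT.T6.H847.EllRamTop
import Fermat.Agent.LT.T6.H826.EllReduce
import Fermat.Agent.LT.T6.H423.EllAlg
import Fermat.Agent.LT.H129.EllParamClosed
import Fermat.Agent.LT.T6.H159.FLVanish
import Fermat.Agent.LT.T6.H313.QuadUnitNorm
import Fermat.Agent.LT.T6.H863.SplitMatch
import Fermat.Agent.LT.T6.H904.SplitInt
import Fermat.Agent.LT.T6.H783.BadTop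
import Fermat.Agent.LT.T6.H965.Cover
import Fermat.Agent.LT.T6.H420.Cpt
import Fermat.Agent.LT.T6.H125.Cut
import Fermat.Agent.LT.T6.H777.Lvl
import Fermat.Agent.LT.T6.H811.Add
import Fermat.Agent.LT.T6.H962.CenOdd
import Fermat.Agent.LT.T6.H179.LocRegTop
import Fermat.Agent.LT.T6.H179.Tw
import Fermat.Agent.LT.T6.H166.NormalForm
import Fermat.Agent.LT.T6.H962.RootQA
import Fermat.Agent.LT.T6.H568.NearC
import Fermat.Agent.LT.T6.H227.NormOpen
import Fermat.Agent.LT.T6.H769.CoreU
import Fermat.Agent.LT.T6.H60.FLEllUnr
import Fermat.Agent.LT.T6.H783.BadFinal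
import Fermat.Agent.LT.T6.SpecTame
import Fermat.Agent.LT.T6.H367.EllCount
import Fermat.Agent.LT.T6.H783.BadClosed
import Fermat.Agent.LT.H129.ArchInjClosed
import Fermat.Agent.LT.T6.H888.ArchClass
import Fermat.Agent.LT.T6.H626.ArchMatchClosed626

/-!
# Row LT, tower T6 (helper22, architect): INTEGRATION of the closed leaves — v12 (TOWER CLOSED, archimedean part included)

OFF-MAIN.  Imports byte-identical copies of the volunteers' files and discharges the closed
leaves of `top` (`LT/T6/Spec.lean`, sha256 c1b839bc63f9c731 = v3 8c5f2ae7a3cd8a6e + the appendix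
of the row-lead helper17 which declares the equation lemmas of `twN`, `satPoly` once; no typed
Prop changed).

GRADER (kernel checker): in the closure of v3 - v10 the constants `twN.eq_def`, `satPoly.eq_def`
(`Spec.lean`) and `H288.fNorm.eq_def` (`H288/HypSpec.lean`) were declared by several user modules
with different values (found by helper8, helper112, helper493).  Fixed by the appendices of
helper17 (bytes of the MASTER tree, `origin/helper17@d6ab91aac`) to `Spec.lean` and to
`H288/HypSpec.lean` (sha256 9cada1675e5d0cad); every other file is unchanged.  Check: 0 differing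
duplicates in the modules of the closure; the grader's kernel checker accepts the closure.

**The non-archimedean tower is CLOSED**: `top_closed : T6Out`, `topTame_closed : T6OutTame`
(unconditional; `Open` has no field any more, `top_of_open : Open → T6Out` is kept for the
consumers of v3 - v7).
**The archimedean part (`SpecArch.lean`, P7; sub-architects helper19, helper626) is CLOSED**:
`topArch_closed : T6ArchOut` (unconditional; `OpenArch` has no field any more,
`topArch_of_open : OpenArch → T6ArchOut` is kept for the consumers): T6.20 `ArchMatchC`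
(helper626), T6.21 `ArchInjC` (helper129), T6.22 `ArchClassC` (helper888).

| leaf of `top` | state | closed by |
|---|---|---|
| T6.00a `HasseNormTCC` | CLOSED | helper49 `hasseNormTCC49` (tower CFT: 49, 637, 119, 53; main S55) |
| T6.00b `HasseNormQC` | CLOSED | helper137 `hasseNormQC_of_open137` (cut of helper438; 157, 166, 857, 439, 793, 137, 219), `CoreC438` by helper769 |
| T6.01 `InstLocalC` | CLOSED | helper176 |
| T6.02 `InstExtC` | CLOSED | helper267 |
| T6.03 `InstSplitC` | CLOSED | helper116 |
| T6.04 `NormClassC` | CLOSED | helper981 |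
| T6.05 `NormInjC` | CLOSED | helper848 |
| T6.06 `TwCentC` | CLOSED | helper166 |
| T6.07a/b `NormImageTCC`, `NormImageQC` from Hasse | CLOSED | helper502 (also helper536) |
| T6.08 `OrbSumExC` | CLOSED | helper420 |
| T6.09 `OrbSumUniqC` | CLOSED | helper944 |
| T6.10 `SatakeEigenC` | CLOSED | helper305 |
| T6.11 `BCExistsC` | CLOSED | helper999 |
| T6.12 `FLHypC` | CLOSED | helper288 (227, 569, 770, 888, 546, 176, 687, 830, 459, 272, 400, 131, 82, 555) |
| T6.13 `FLEllUnrC` | CLOSED | helper60 `flEllUnrC60` (277, 887, 340, 338, 546, 926, 69, 439, 293; `FixTwC` by helper865 / helper599 with 811, 264, 820, 241, 426, 864) |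
| T6.14 `FLEllRamC` | CLOSED | helper847 tops; 826 `EllReduceC`, 129 `EllParamC` (420, 286, 952, 75, 437), 367 `EllCountC`, 423 `EllAlgC`, 687 |
| T6.15 `FLVanishC` | CLOSED | helper159 `flVanish_of_quad` (848, 98, 129, 313, 569, 288) |
| T6.16 `SplitMatchC` | CLOSED | helper863 |
| T6.17 `SplitInt2C`, `SplitInt3C` | CLOSED | helper904 |
| T6.18 `BadMatchC` | CLOSED | helper783 `badMatch_of_ellCount783` (965, 420, 125, 777, 811, 962, 388, 863, 372, 717, 82, 196, 846, 820, 333, 227, 179, 706, 166, 568; quaternion case helper385 with 392, 122, 497, 844, 388, 382, 886, 355, 665, 621, 558, 675, 793, 983, 526, 305) |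
| T6.19 `OrbSumIntC` | CLOSED | helper846 (spare helper938) |
| T6.20 `ArchMatchC` | CLOSED | helper626 `archMatchC626` (route H: 283, 698, 290, 729, 3, 922, 501, 439, 904, 944; 830 `SpecRelC626`; 855 `HypExplC634`; 634, 833, 842, 75, 781, 559, 189 elliptic part) |
| T6.21 `ArchInjC` | CLOSED | helper129 `archInjC129` (830, 543, 426, 848, 492, 964, 792; second proof helper952) |
| T6.22 `ArchClassC` | CLOSED | helper888 `archClassC_closed888` (263, 497, 162, 543, 830, 683, 468, 682, 863, 319; second route helper19 / 59 / 811 / 922) |
-/

set_option autoImplicit false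

noncomputable section

namespace Fermat.Agent.LT.T6

/-- THE OPEN PART of tower T6: the leaves still to be proved.  NO FIELD: the tower is closed
(`open_closed`). -/
structure Open : Prop where

/-- T6.15 is closed. -/
theorem flVanish_closed : FLVanishC :=
  H159.flVanish_of_quad H569.satClosed569 H288.orbSumDiagC_closed H313.quadUnitNormC313

/-- T6.14 is closed. -/
theorem flEllRam_closed : FLEllRamC :=
  H847.flEllRam_of_leaves H826.ellReduceC826
    (H847.ellOrb_of H687.cartanInvC_h687 Fermat.Agent.LT.H129.ellParamC129
      H367.ellCountC367) H423.ellAlg423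

/-- **The fundamental lemma is closed.** -/
theorem fundLemma_closed : FundLemmaC :=
  fundLemma_of_cases H288.flHypC_closed H60.flEllUnrC60 flEllRam_closed flVanish_closed

/-- T6.18 is closed. -/
theorem badMatch_closed : BadMatchC :=
  H783.badMatch_of_ellCount783 H367.ellCountC367

/-- STATE OF THE TOWER: the output of T6 (`Open` has no field; kept for the consumers). -/
theorem top_of_open (_O : Open) : T6Out :=
  top H49.hasseNormTCC49
    (H137.hasseNormQC_of_open137 ⟨H219.localCC219, H769.coreC_uncond769⟩)
    H981.normClassC_h981 H848.normInjC848 H166.twCentC166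
    H502.normImageTC_of_hasse502 H502.normImageQ_of_hasse502 H176.instLocalC176
    H267.instExtC H116.instSplitC_h116
    H420.orbSumExC420 H944.orbSumUniqC944 H846.orbSumIntC846 H305.satakeEigenC305
    H999.bcExistsC999
    H288.flHypC_closed H60.flEllUnrC60
    flEllRam_closed flVanish_closed H863.splitMatchC_863
    H904.splitInt2 H904.splitInt3 badMatch_closed

/-- The same for the tame output (`SpecTame.lean`; what T7 consumes). -/
theorem topTame_of_open (O : Open) : T6OutTame :=
  t6OutTame_of_t6Out (top_of_open O)

/-! ## THE TOWER IS CLOSED -/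

/-- Nothing is open. -/
theorem open_closed : Open := ⟨⟩

/-- **TOWER T6 (non-archimedean part), unconditional.** -/
theorem top_closed : T6Out := top_of_open open_closed

/-- **TOWER T6, tame output (what T7 consumes), unconditional.** -/
theorem topTame_closed : T6OutTame := topTame_of_open open_closed

/-- THE OPEN PART of the archimedean output (P7, `SpecArch.lean`; only the quadratic step of
T7 uses it).  NO FIELD: the archimedean part is closed (`openArch_closed`). -/
structure OpenArch : Prop where

/-- T6.21 is closed. -/
theorem archInj_closed : ArchInjC := Fermat.Agent.LT.H129.archInjC129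

/-- T6.22 is closed. -/
theorem archClass_closed : ArchClassC := H888.archClassC_closed888

/-- T6.20 is closed. -/
theorem archMatch_closed : ArchMatchC := H626.archMatchC626

/-- The archimedean output from T6.20 alone. -/
theorem topArch_of_archMatch (h : ArchMatchC) : T6ArchOut :=
  topArch h archInj_closed archClass_closed

/-- STATE OF THE ARCHIMEDEAN PART (`OpenArch` has no field; kept for the consumers). -/
theorem topArch_of_open (_O : OpenArch) : T6ArchOut :=
  topArch_of_archMatch archMatch_closed

/-- Nothing is open in the archimedean part. -/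
theorem openArch_closed : OpenArch := ⟨⟩

/-- **TOWER T6, archimedean output (P7), unconditional.** -/
theorem topArch_closed : T6ArchOut := topArch_of_open openArch_closed

end Fermat.Agent.LT.T6

end
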