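import Mathlib
import Fermat.Agent.LT.T6.Spec
import Fermat.Agent.LT.T6.H116.InstSplit

/-!
# Row LT, tower T6 (architect helper22): THE LOCAL EXTENSION DATUM IS UNIQUE

OFF-MAIN, ADDITIVE asset (new names only; `Spec.lean` is untouched).  Mathlib + `T6/Spec` +
`T6/H116/InstSplit` (helper116: `unif_basis_h116`).

The leaves `T6.InstExtC`, `T6.BadMatchC`, `T6.FundLemmaC` are stated for ONE local datum
`(e, i, s_w)` at a place `w ∣ v` (`i : K_v → K'_w`, `s_w` the extension of `σ`), while the
consumers (T7, field `matched`: `H305.LocHyp305.inert`, `H584.NonNormLocC584`) quantify over ALL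
data compatible with `K → K'` and `σ`.  This file shows that the datum is UNIQUE, so that a
property proved for the datum of `InstExtC` holds for every datum:

* `continuous_of_val_pow22` : a ring homomorphism `i : k → k'` of valued fields (surjective
  valuations) with `v (i x) = v x ^ e`, `0 < e`, is continuous;
* `locIncl_unique22` : two such `i, i' : K_v → K'_w` which agree on `K` are equal;
* `locAut_unique22` : two valuation preserving automorphisms of `K'_w` which agree on `K'` are
  equal;
* `locRam_unique22` : the exponent `e` is determined by `i`;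
* `locDatum_unique22` : `(e, i, s_w) = (e', i', s_w')`;
* `locDatum_all_of_one22` : a property of ONE compatible datum holds for ALL compatible data.
-/

set_option autoImplicit false

open IsDedekindDomain NumberField

noncomputable section

namespace Fermat.Agent.LT.T6

section Abstract

variable {k k' : Type} [Field k] [Field k'] [Valued k Γ₀] [Valued k' Γ₀]

/-- A ring homomorphism of valued fields (surjective valuations) with `v (i x) = v x ^ e`,
`0 < e`, is continuous. -/
theorem continuous_of_val_pow22 (hs : Function.Surjective (Valued.v : k → Γ₀))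
    (hs' : Function.Surjective (Valued.v : k' → Γ₀)) (i : k →+* k') (e : ℕ) (he : 0 < e)
    (hv : ∀ x : k, Valued.v (i x) = Valued.v x ^ e) : Continuous i := by
  have hb := nhds_basis_uniformity' (x := (0 : k)) (H116.unif_basis_h116 k hs)
  have hb' := nhds_basis_uniformity' (x := (0 : k')) (H116.unif_basis_h116 k' hs')
  have h0 : ContinuousAt (i : k →+ k') 0 := by
    rw [ContinuousAt, map_zero]
    refine (hb.tendsto_iff hb').2 ?_
    intro γ' hγ'
    refine ⟨min γ' 1, ?_, ?_⟩
    · rcases min_choice γ' 1 with h | h
      · rw [h]; exact hγ'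
      · rw [h]; exact one_ne_zero
    · intro x hx
      have hx' : Valued.v (x - 0) < min γ' 1 := hx
      rw [sub_zero] at hx'
      have hx1 : Valued.v x ≤ 1 := (hx'.trans_le (min_le_right _ _)).le
      have hpow : Valued.v x ^ e ≤ Valued.v x :=
        pow_le_of_le_one zero_le hx1 (Nat.pos_iff_ne_zero.mp he)
      change Valued.v ((i : k →+ k') x - 0) < γ'
      rw [sub_zero]
      have : Valued.v (i x) < γ' := by
        rw [hv x]
        exact (hpow.trans_lt hx').trans_le (min_le_left _ _)
      exact this
  exact continuous_of_continuousAt_zero (i : k →+ k') h0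

end Abstract

section Places

variable {K K' : Type} [Field K] [NumberField K] [Field K'] [NumberField K'] [Algebra K K']

omit [Algebra K K'] in
/-- Two embeddings `K_v → K'_w` with `v (i x) = v x ^ e` which agree on `K` are equal. -/
theorem locIncl_unique22 (v : HeightOneSpectrum (𝓞 K)) (w : HeightOneSpectrum (𝓞 K'))
    (e e' : ℕ) (i i' : v.adicCompletion K →+* w.adicCompletion K') (he : 0 < e) (he' : 0 < e')
    (hv : ∀ x : v.adicCompletion K, Valued.v (i x) = Valued.v x ^ e)
    (hv' : ∀ x : v.adicCompletion K, Valued.v (i' x) = Valued.v x ^ e')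
    (h : ∀ x : K, i (algebraMap K (v.adicCompletion K) x)
      = i' (algebraMap K (v.adicCompletion K) x)) : i = i' := by
  have hc := continuous_of_val_pow22 (HeightOneSpectrum.valuedAdicCompletion_surjective K v)
    (HeightOneSpectrum.valuedAdicCompletion_surjective K' w) i e he hv
  have hc' := continuous_of_val_pow22 (HeightOneSpectrum.valuedAdicCompletion_surjective K v)
    (HeightOneSpectrum.valuedAdicCompletion_surjective K' w) i' e' he' hv'
  have hfun : (⇑i : v.adicCompletion K → w.adicCompletion K') = ⇑i' := by
    refine (HeightOneSpectrum.denseRange_algebraMap K v).equalizer hc hc' ?_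
    funext x
    exact h x
  exact RingHom.ext fun x => congrFun hfun x

/-- Two valuation preserving automorphisms of `K'_w` which agree on `K'` are equal. -/
theorem locAut_unique22 (w : HeightOneSpectrum (𝓞 K'))
    (sw sw' : w.adicCompletion K' ≃+* w.adicCompletion K')
    (hv : ∀ y : w.adicCompletion K', Valued.v (sw y) = Valued.v y)
    (hv' : ∀ y : w.adicCompletion K', Valued.v (sw' y) = Valued.v y)
    (h : ∀ y : K', sw (algebraMap K' (w.adicCompletion K') y)
      = sw' (algebraMap K' (w.adicCompletion K') y)) : sw = sw' := by
  have hsurj := HeightOneSpectrum.valuedAdicCompletion_surjective K' w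
  have hc := continuous_of_val_pow22 hsurj hsurj
    (sw : w.adicCompletion K' →+* w.adicCompletion K') 1
    Nat.one_pos (fun x => by rw [pow_one]; exact hv x)
  have hc' := continuous_of_val_pow22 hsurj hsurj
    (sw' : w.adicCompletion K' →+* w.adicCompletion K') 1
    Nat.one_pos (fun x => by rw [pow_one]; exact hv' x)
  have hfun : (⇑sw : w.adicCompletion K' → w.adicCompletion K') = ⇑sw' := by
    refine (HeightOneSpectrum.denseRange_algebraMap K' w).equalizer hc hc' ?_
    funext y
    exact h y
  exact RingEquiv.ext fun y => congrFun hfun y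

omit [Algebra K K'] in
/-- The exponent `e` with `v (i x) = v x ^ e` is determined by `i`. -/
theorem locRam_unique22 (v : HeightOneSpectrum (𝓞 K)) (w : HeightOneSpectrum (𝓞 K'))
    (e e' : ℕ) (i : v.adicCompletion K →+* w.adicCompletion K')
    (hv : ∀ x : v.adicCompletion K, Valued.v (i x) = Valued.v x ^ e)
    (hv' : ∀ x : v.adicCompletion K, Valued.v (i x) = Valued.v x ^ e') : e = e' := by
  obtain ⟨π, hπ⟩ := v.valuation_exists_uniformizer K
  have hval : Valued.v (algebraMap K (v.adicCompletion K) π) = WithZero.exp (-1 : ℤ) := by
    have h1 : Valued.v (algebraMap K (v.adicCompletion K) π) = v.valuation K π :=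
      HeightOneSpectrum.valuedAdicCompletion_eq_valuation' v π
    rw [h1, hπ]
  have h2 := (hv (algebraMap K (v.adicCompletion K) π)).symm.trans
    (hv' (algebraMap K (v.adicCompletion K) π))
  rw [hval, ← WithZero.exp_nsmul, ← WithZero.exp_nsmul] at h2
  have h3 := WithZero.exp_injective h2
  simp only [nsmul_eq_mul, mul_neg, mul_one, neg_inj] at h3
  exact_mod_cast h3

/-- **The local extension datum is unique.** -/
theorem locDatum_unique22 (s : K' ≃+* K') (v : HeightOneSpectrum (𝓞 K))
    (w : HeightOneSpectrum (𝓞 K')) (l : ℕ)
    (e e' : ℕ) (i i' : v.adicCompletion K →+* w.adicCompletion K')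
    (sw sw' : w.adicCompletion K' ≃+* w.adicCompletion K')
    (hi : ∀ x : K, i (algebraMap K (v.adicCompletion K) x)
      = algebraMap K' (w.adicCompletion K') (algebraMap K K' x))
    (hi' : ∀ x : K, i' (algebraMap K (v.adicCompletion K) x)
      = algebraMap K' (w.adicCompletion K') (algebraMap K K' x))
    (hs : ∀ y : K', sw (algebraMap K' (w.adicCompletion K') y)
      = algebraMap K' (w.adicCompletion K') (s y))
    (hs' : ∀ y : K', sw' (algebraMap K' (w.adicCompletion K') y)
      = algebraMap K' (w.adicCompletion K') (s y))
    (hE : IsLocalExt (v.adicCompletion K) (w.adicCompletion K') l e i sw)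
    (hE' : IsLocalExt (v.adicCompletion K) (w.adicCompletion K') l e' i' sw') :
    e = e' ∧ i = i' ∧ sw = sw' := by
  have h1 : i = i' := locIncl_unique22 v w e e' i i' hE.e_pos hE'.e_pos hE.val_i hE'.val_i
    (fun x => (hi x).trans (hi' x).symm)
  have h2 : sw = sw' := locAut_unique22 w sw sw' hE.val_s hE'.val_s
    (fun y => (hs y).trans (hs' y).symm)
  subst h1
  exact ⟨locRam_unique22 v w e e' i hE.val_i hE'.val_i, rfl, h2⟩

/-- **A property of ONE compatible local datum holds for ALL compatible local data**
(the shape of the quantifiers of `H305.LocHyp305.inert`). -/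
theorem locDatum_all_of_one22 (s : K' ≃+* K') (v : HeightOneSpectrum (𝓞 K))
    (w : HeightOneSpectrum (𝓞 K')) (l : ℕ)
    (P : ℕ → (v.adicCompletion K →+* w.adicCompletion K') →
      (w.adicCompletion K' ≃+* w.adicCompletion K') → Prop)
    (e : ℕ) (i : v.adicCompletion K →+* w.adicCompletion K')
    (sw : w.adicCompletion K' ≃+* w.adicCompletion K')
    (hi : ∀ x : K, i (algebraMap K (v.adicCompletion K) x)
      = algebraMap K' (w.adicCompletion K') (algebraMap K K' x))
    (hs : ∀ y : K', sw (algebraMap K' (w.adicCompletion K') y)
      = algebraMap K' (w.adicCompletion K') (s y))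
    (hE : IsLocalExt (v.adicCompletion K) (w.adicCompletion K') l e i sw)
    (hP : P e i sw) :
    ∀ (e' : ℕ) (i' : v.adicCompletion K →+* w.adicCompletion K')
      (sw' : w.adicCompletion K' ≃+* w.adicCompletion K'),
      (∀ x : K, i' (algebraMap K (v.adicCompletion K) x)
        = algebraMap K' (w.adicCompletion K') (algebraMap K K' x)) →
      (∀ y : K', sw' (algebraMap K' (w.adicCompletion K') y)
        = algebraMap K' (w.adicCompletion K') (s y)) →
      IsLocalExt (v.adicCompletion K) (w.adicCompletion K') l e' i' sw' → P e' i' sw' := by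
  intro e' i' sw' hi' hs' hE'
  obtain ⟨h1, h2, h3⟩ := locDatum_unique22 s v w l e e' i i' sw sw' hi hi' hs hs' hE hE'
  subst h1 h2 h3
  exact hP

end Places

end Fermat.Agent.LT.T6

end
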